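import Mathlib
import Fermat.Agent.S18.CoreDefs
import Fermat.Agent.S24.Ord

/-!
# PROJECT M (S15), block [E2], leaf (E2-r): the key inequality of a reduction datum

`R : RedDatum A π r` (main's `S18.CoreDefs`): Gauss valuation ring `R.O` of the function field `FL`
over the valued field `(L, A)`, reduction `R.red : R.O →+* Fk`, and `r_* div u = div (red u)` for the
Gauss units `u`.

* `mapDomain_apply_eq_sum`, `sum_le_mapDomain_apply` : the value of a push-forward divisor at a
  point is the sum over the fibre; a lower bound when all terms outside a finite set `T` of the fibre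
  are nonnegative.
* `key_ineq` : for `g ∈ R.O` with `red g ≠ 0`, a place `Q` of `Fk` and a finite set `T` of places
  over `Q` such that `g` has no pole at the other places over `Q`:
  `∑ P ∈ T, ord_P g ≤ ord_Q (red g)`.
-/

set_option autoImplicit false

namespace Fermat.Agent.S15.E2.RedDict.SumBound

open AlgebraicCurve Fermat.Agent.S18.CoreDefs

section Fin

variable {α β : Type*}

open Classical in
theorem mapDomain_apply_eq_sum (r : α → β) (D : α →₀ ℤ) (Q : β) :
    Finsupp.mapDomain r D Q = ∑ P ∈ D.support with r P = Q, D P := by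
  rw [Finsupp.mapDomain, Finsupp.sum, Finsupp.finsetSum_apply, Finset.sum_filter]
  refine Finset.sum_congr rfl fun P _ => ?_
  rw [Finsupp.single_apply]

open Classical in
theorem mapDomain_apply_eq_sum_of_subset (r : α → β) (D : α →₀ ℤ) (Q : β) (U : Finset α)
    (hU : D.support ⊆ U) :
    Finsupp.mapDomain r D Q = ∑ P ∈ U with r P = Q, D P := by
  rw [mapDomain_apply_eq_sum]
  refine Finset.sum_subset (Finset.filter_subset_filter _ hU) fun P hP hP' => ?_
  rw [Finset.mem_filter] at hP hP'
  by_contra h0
  exact hP' ⟨Finsupp.mem_support_iff.mpr h0, hP.2⟩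

open Classical in
/-- lower bound for the value of a push-forward at `Q`: the terms of the fibre outside `T` are
nonnegative. -/
theorem sum_le_mapDomain_apply (r : α → β) (D : α →₀ ℤ) (Q : β) (T : Finset α)
    (hT : ∀ P ∈ T, r P = Q) (hpos : ∀ P, r P = Q → P ∉ T → 0 ≤ D P) :
    ∑ P ∈ T, D P ≤ Finsupp.mapDomain r D Q := by
  rw [mapDomain_apply_eq_sum_of_subset r D Q (D.support ∪ T) Finset.subset_union_left]
  have hsub : T ⊆ (D.support ∪ T).filter (fun P => r P = Q) := by
    intro P hP
    rw [Finset.mem_filter]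
    exact ⟨Finset.mem_union_right _ hP, hT P hP⟩
  refine Finset.sum_le_sum_of_subset_of_nonneg hsub fun P hP hPT => ?_
  rw [Finset.mem_filter] at hP
  exact hpos P hP.2 hPT

end Fin

section Core

variable {L : Type*} [Field L] {FL : Type*} [Field FL] [Algebra L FL]
variable {k : Type*} [Field k] {Fk : Type*} [Field Fk] [Algebra k Fk]
variable {A : ValuationSubring L} {π : A →+* k} {r : Place L FL → Place k Fk}
variable (R : RedDatum A π r) [HasPrincipalDivisors L FL]

omit [HasPrincipalDivisors L FL] in
/-- a Gauss-integral function with nonzero reduction is a Gauss unit -/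
theorem isUnit_of_red_ne_zero (g : R.O) (hg : R.red g ≠ 0) : IsUnit g := by
  by_contra h
  exact hg ((R.red_eq_zero_iff g).mpr h)

omit [HasPrincipalDivisors L FL] in
theorem ne_zero_of_red_ne_zero (g : R.O) (hg : R.red g ≠ 0) : (g : FL) ≠ 0 := by
  intro h0
  apply hg
  have : g = 0 := Subtype.ext h0
  rw [this, map_zero]

/-- **The key inequality.** -/
theorem key_ineq (g : R.O) (hg : R.red g ≠ 0) (Q : Place k Fk) (T : Finset (Place L FL))
    (hT : ∀ P ∈ T, r P = Q) (hpos : ∀ P, r P = Q → P ∉ T → 0 ≤ P.ord (g : FL)) :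
    ∑ P ∈ T, P.ord (g : FL) ≤ Q.ord (R.red g) := by
  obtain ⟨u, hu⟩ := isUnit_of_red_ne_zero R g hg
  obtain ⟨D, hD, -⟩ := HasPrincipalDivisors.exists_divisor (K := L) (g : FL)
    (ne_zero_of_red_ne_zero R g hg)
  have hcompat := R.compat u D (fun P => by rw [hD P, hu]) Q
  rw [hu] at hcompat
  rw [← hcompat]
  have := sum_le_mapDomain_apply r D Q T hT (fun P hP hPT => by rw [hD P]; exact hpos P hP hPT)
  refine le_trans (le_of_eq ?_) this
  exact Finset.sum_congr rfl fun P _ => (hD P).symm

/-- the exact form: all the terms of the fibre outside `T` vanish. -/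
theorem key_eq (g : R.O) (hg : R.red g ≠ 0) (Q : Place k Fk) (T : Finset (Place L FL))
    (hT : ∀ P ∈ T, r P = Q) (hzero : ∀ P, r P = Q → P ∉ T → P.ord (g : FL) = 0) :
    ∑ P ∈ T, P.ord (g : FL) = Q.ord (R.red g) := by
  classical
  obtain ⟨u, hu⟩ := isUnit_of_red_ne_zero R g hg
  obtain ⟨D, hD, -⟩ := HasPrincipalDivisors.exists_divisor (K := L) (g : FL)
    (ne_zero_of_red_ne_zero R g hg)
  have hcompat := R.compat u D (fun P => by rw [hD P, hu]) Q
  rw [hu] at hcompat
  rw [← hcompat, mapDomain_apply_eq_sum_of_subset r D Q (D.support ∪ T) Finset.subset_union_left]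
  have hsub : T ⊆ (D.support ∪ T).filter (fun P => r P = Q) := by
    intro P hP
    rw [Finset.mem_filter]
    exact ⟨Finset.mem_union_right _ hP, hT P hP⟩
  rw [← Finset.sum_subset hsub (fun P hP hPT => by
    rw [Finset.mem_filter] at hP
    rw [hD P]
    exact hzero P hP.2 hPT)]
  exact Finset.sum_congr rfl fun P _ => (hD P).symm

end Core

end Fermat.Agent.S15.E2.RedDict.SumBound
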