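import Mathlib
import Fermat.Agent.S15.E2.RedDict.SumBound

/-!
# PROJECT M (S15), block [E2], leaf (E2-r): the cusp dictionary of a reduction datum, abstractly

`R : RedDatum A π r` a reduction datum (main's `S18.CoreDefs`), `p ≥ 2`.  A `Frame R p` is the
following data (for `X₀(p)`: `J = j`, `JN = j(q^p)`):

* `J, JN ∈ R.O`;
* two places `cI ≠ c0` of `FL` ("the cusps `∞` and `0`") with `ord_cI J = -1`, `ord_cI JN = -p`,
  `ord_c0 J = -p`, `ord_c0 JN ≥ -1`, and `J`, `JN` regular at all the other places;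
* a place `cIb` of `Fk` with `ord_cIb (red J) = -1`, `ord_cIb (red JN) = -p`, and the fundamental
  identity `∑_{poles Q of red J} -ord_Q (red J) = p + 1` on the residue side.

Consequences (no hypothesis on the residue side besides these):

* `red_cI : r cI = cIb`, `red_c0_ne : r c0 ≠ cIb`, the poles of `red J` are `cIb` and `r c0`;
* for a place `x` with values `J(x) = a ∉ A`, `JN(x) = b = c · a ^ p`:
  `c ∈ 𝔪_A ⇒ r x = r c0` (`red_eq_c0`), `c ∈ Aˣ ⇒ r x = r cI` (`red_eq_cI`);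
* uniqueness: two places over `JN = b ∉ A` reducing to `r c0` are equal (`unique_c0`), two places
  over `J = a ∉ A` reducing to `r cI` are equal (`unique_cI`).
-/

set_option autoImplicit false

namespace Fermat.Agent.S15.E2.RedDict.Abstract

open AlgebraicCurve WithZero Fermat.Agent.S18.CoreDefs Fermat.Agent.S24.Ord
open Fermat.Agent.S15.E2.RedDict.SumBound

/-! ### orders and valuation rings of places -/

section OrdLemmas

variable {K F : Type*} [Field K] [Field F] [Algebra K F] (v : Place K F)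

theorem ord_nonneg_of_mem {f : F} (hf : f ∈ v.toValuationSubring) : 0 ≤ v.ord f := by
  rcases eq_or_ne f 0 with rfl | h0
  · simp
  · exact (ord_nonneg_iff v h0).mpr ((mem_iff v f).mp hf)

theorem mem_of_ord_nonneg {f : F} (hf : 0 ≤ v.ord f) : f ∈ v.toValuationSubring := by
  rcases eq_or_ne f 0 with rfl | h0
  · exact zero_mem _
  · exact (mem_iff v f).mpr ((ord_nonneg_iff v h0).mp hf)

theorem not_mem_of_ord_neg {f : F} (hf : v.ord f < 0) : f ∉ v.toValuationSubring := fun h =>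
  absurd (ord_nonneg_of_mem v h) (not_le.mpr hf)

theorem mem_nonunits_iff_lt (f : F) :
    f ∈ v.toValuationSubring.nonunits ↔ v.adicValuation f < 1 := by
  rw [ValuationSubring.mem_nonunits_iff_exists_mem_maximalIdeal]
  constructor
  · rintro ⟨hy, hmem⟩
    exact (mem_maximalIdeal_iff v ⟨f, hy⟩).mp hmem
  · intro h
    have hy : f ∈ v.toValuationSubring := (mem_iff v f).mpr h.le
    exact ⟨hy, (mem_maximalIdeal_iff v ⟨f, hy⟩).mpr h⟩

theorem ord_pos_of_mem_nonunits {f : F} (h0 : f ≠ 0) (hf : f ∈ v.toValuationSubring.nonunits) :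
    0 < v.ord f :=
  (ord_pos_iff v h0).mpr ((mem_nonunits_iff_lt v f).mp hf)

theorem mem_of_mem_nonunits {f : F} (hf : f ∈ v.toValuationSubring.nonunits) :
    f ∈ v.toValuationSubring :=
  (mem_iff v f).mpr ((mem_nonunits_iff_lt v f).mp hf).le

theorem le_ord_of_adicValuation_le {f : F} (h0 : f ≠ 0) {n : ℤ}
    (h : v.adicValuation f ≤ exp (-n)) : n ≤ v.ord f := by
  rw [adicValuation_eq v h0, exp_le_exp] at h
  omega

theorem adicValuation_le_of_le_ord {f : F} {n : ℤ} (h0 : f ≠ 0) (h : n ≤ v.ord f) :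
    v.adicValuation f ≤ exp (-n) := by
  rw [adicValuation_eq v h0, exp_le_exp]
  omega

theorem adicValuation_eq_of_ord_eq {f : F} {n : ℤ} (h0 : f ≠ 0) (h : v.ord f = n) :
    v.adicValuation f = exp (-n) := by
  rw [adicValuation_eq v h0, h]

theorem ord_natPow (f : F) (n : ℕ) : v.ord (f ^ n) = n * v.ord f := by
  have := v.ord_zpow f (n : ℤ)
  rwa [zpow_natCast] at this

theorem ord_const_mul {c : K} (hc : c ≠ 0) (f : F) : v.ord (algebraMap K F c * f) = v.ord f := by
  rcases eq_or_ne f 0 with rfl | hf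
  · simp
  · rw [v.ord_mul ((map_ne_zero_iff _ (algebraMap K F).injective).mpr hc) hf, ord_algebraMap,
      zero_add]

theorem adicValuation_le_of_eq_zero_or_le_ord {f : F} {n : ℤ} (hf : f = 0 ∨ n ≤ v.ord f) :
    v.adicValuation f ≤ exp (-n) := by
  rcases eq_or_ne f 0 with rfl | h0
  · rw [map_zero]
    exact zero_le
  · rcases hf with hf | hf
    · exact absurd hf h0
    · exact adicValuation_le_of_le_ord v h0 hf

/-- lower bound for the order of a difference (the bound for a vanishing term is void) -/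
theorem le_ord_sub {f g : F} {n : ℤ} (hfg : f - g ≠ 0) (hf : f = 0 ∨ n ≤ v.ord f)
    (hg : g = 0 ∨ n ≤ v.ord g) : n ≤ v.ord (f - g) :=
  le_ord_of_adicValuation_le v hfg
    (Valuation.map_sub_le _ (adicValuation_le_of_eq_zero_or_le_ord v hf)
      (adicValuation_le_of_eq_zero_or_le_ord v hg))

/-- the order of a difference when the second term dominates -/
theorem ord_sub_eq_of_lt {f g : F} (hf : f ≠ 0) (hg : g ≠ 0) (h : v.ord g < v.ord f) :
    v.ord (f - g) = v.ord g := by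
  have hlt : v.adicValuation f < v.adicValuation g := by
    rw [adicValuation_eq v hf, adicValuation_eq v hg, exp_lt_exp]
    omega
  rw [ord_eq, ord_eq, Valuation.map_sub_eq_of_lt_right _ hlt]

/-- evaluation at a place: if `J(v) = a`, `JN(v) = b` and `b = c a ^ p`, then `JN - c J ^ p` vanishes
at `v`. -/
theorem eval_mem_nonunits {J JN : F} {a b c : K} {p : ℕ}
    (hJ : J - algebraMap K F a ∈ v.toValuationSubring.nonunits)
    (hJN : JN - algebraMap K F b ∈ v.toValuationSubring.nonunits) (hbc : b = c * a ^ p) :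
    JN - algebraMap K F c * J ^ p ∈ v.toValuationSubring.nonunits := by
  obtain ⟨h1, m1⟩ := ValuationSubring.mem_nonunits_iff_exists_mem_maximalIdeal.mp hJ
  obtain ⟨h2, m2⟩ := ValuationSubring.mem_nonunits_iff_exists_mem_maximalIdeal.mp hJN
  have ha : algebraMap K F a ∈ v.toValuationSubring := v.algebraMap_mem' a
  have hc : algebraMap K F c ∈ v.toValuationSubring := v.algebraMap_mem' c
  have hJO : J ∈ v.toValuationSubring := by
    have := v.toValuationSubring.add_mem _ _ h1 ha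
    rwa [sub_add_cancel] at this
  set Jx : v.toValuationSubring := ⟨J, hJO⟩ with hJx
  set ax : v.toValuationSubring := ⟨algebraMap K F a, ha⟩ with hax
  set cx : v.toValuationSubring := ⟨algebraMap K F c, hc⟩ with hcx
  have e0 : Jx - ax = ⟨J - algebraMap K F a, h1⟩ := Subtype.ext rfl
  have e1 : Jx ^ p - ax ^ p ∈ IsLocalRing.maximalIdeal v.toValuationSubring := by
    rw [← geom_sum₂_mul, e0]
    exact Ideal.mul_mem_left _ _ m1
  have e2 : (⟨JN - algebraMap K F b, h2⟩ : v.toValuationSubring) - cx * (Jx ^ p - ax ^ p) ∈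
      IsLocalRing.maximalIdeal v.toValuationSubring :=
    Ideal.sub_mem _ m2 (Ideal.mul_mem_left _ _ e1)
  have hcoe : (((⟨JN - algebraMap K F b, h2⟩ : v.toValuationSubring) - cx * (Jx ^ p - ax ^ p) :
      v.toValuationSubring) : F) = JN - algebraMap K F c * J ^ p := by
    show (JN - algebraMap K F b) - algebraMap K F c * (J ^ p - (algebraMap K F a) ^ p) = _
    rw [hbc, map_mul, map_pow]
    ring
  rw [← hcoe]
  exact ValuationSubring.mem_nonunits_iff_exists_mem_maximalIdeal.mpr ⟨Subtype.mem _, e2⟩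

/-- `1 - a⁻¹ J` vanishes at a place where `J` takes the value `a ≠ 0`. -/
theorem one_sub_inv_mul_mem_nonunits {J : F} {a : K} (ha : a ≠ 0)
    (hJ : J - algebraMap K F a ∈ v.toValuationSubring.nonunits) :
    1 - algebraMap K F a⁻¹ * J ∈ v.toValuationSubring.nonunits := by
  rw [mem_nonunits_iff_lt] at hJ ⊢
  have ha' : algebraMap K F a ≠ 0 := (map_ne_zero_iff _ (algebraMap K F).injective).mpr ha
  have e : 1 - algebraMap K F a⁻¹ * J = -(algebraMap K F a⁻¹ * (J - algebraMap K F a)) := by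
    rw [map_inv₀]
    field_simp
    ring
  rw [e, Valuation.map_neg, map_mul, adicValuation_algebraMap v (inv_ne_zero ha), one_mul]
  exact hJ

theorem mem_of_value {J : F} {a : K} (hJ : J - algebraMap K F a ∈ v.toValuationSubring.nonunits) :
    J ∈ v.toValuationSubring := by
  have := v.toValuationSubring.add_mem _ _ (mem_of_mem_nonunits v hJ) (v.algebraMap_mem' a)
  rwa [sub_add_cancel] at this

end OrdLemmas

/-! ### frames -/

section FrameDef

variable {L : Type*} [Field L] {FL : Type*} [Field FL] [Algebra L FL]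
variable {k : Type*} [Field k] {Fk : Type*} [Field Fk] [Algebra k Fk]
variable {A : ValuationSubring L} {π : A →+* k} {r : Place L FL → Place k Fk}

/-- the cusp data of `X₀(p)` on both sides of a reduction datum -/
structure Frame (R : RedDatum A π r) (p : ℕ) where
  /-- `j` -/
  J : FL
  /-- `j(q^p)` -/
  JN : FL
  hJ : J ∈ R.O
  hJN : JN ∈ R.O
  /-- the cusp `∞` in characteristic zero -/
  cI : Place L FL
  /-- the cusp `0` in characteristic zero -/
  c0 : Place L FL
  /-- the cusp `∞` on the residue side -/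
  cIb : Place k Fk
  ne : cI ≠ c0
  ord_cI_J : cI.ord J = -1
  ord_cI_JN : cI.ord JN = -(p : ℤ)
  ord_c0_J : c0.ord J = -(p : ℤ)
  ord_c0_JN : -1 ≤ c0.ord JN
  reg_J : ∀ P : Place L FL, P ≠ cI → P ≠ c0 → J ∈ P.toValuationSubring
  reg_JN : ∀ P : Place L FL, P ≠ cI → P ≠ c0 → JN ∈ P.toValuationSubring
  ord_cIb_J : cIb.ord (R.red ⟨J, hJ⟩) = -1
  ord_cIb_JN : cIb.ord (R.red ⟨JN, hJN⟩) = -(p : ℤ)
  /-- the poles of the reduction of `j` -/
  Sb : Finset (Place k Fk)
  mem_Sb : ∀ Q : Place k Fk, Q ∈ Sb ↔ Q.ord (R.red ⟨J, hJ⟩) < 0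
  sum_Sb : ∑ Q ∈ Sb, -Q.ord (R.red ⟨J, hJ⟩) = (p : ℤ) + 1

end FrameDef

namespace Frame

variable {L : Type*} [Field L] {FL : Type*} [Field FL] [Algebra L FL]
variable {k : Type*} [Field k] {Fk : Type*} [Field Fk] [Algebra k Fk]
variable {A : ValuationSubring L} {π : A →+* k} {r : Place L FL → Place k Fk}
variable {R : RedDatum A π r} {p : ℕ} (Φ : Frame R p)

/-- `j` as a Gauss-integral function -/
def JO : R.O := ⟨Φ.J, Φ.hJ⟩

/-- `j(q^p)` as a Gauss-integral function -/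
def JNO : R.O := ⟨Φ.JN, Φ.hJN⟩

/-- the reduction of `j` -/
def jb : Fk := R.red Φ.JO

/-- the reduction of `j(q^p)` -/
def jNb : Fk := R.red Φ.JNO

theorem J_ne_zero : Φ.J ≠ 0 := by
  intro h
  have := Φ.ord_cI_J
  rw [h, Place.ord_zero] at this
  omega

theorem jb_ne_zero : Φ.jb ≠ 0 := by
  intro h
  have := Φ.ord_cIb_J
  change Φ.cIb.ord Φ.jb = -1 at this
  rw [h, Place.ord_zero] at this
  omega

theorem JN_ne_zero (hp : 2 ≤ p) : Φ.JN ≠ 0 := by
  intro h
  have := Φ.ord_cI_JN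
  rw [h, Place.ord_zero] at this
  omega

theorem jNb_ne_zero (hp : 2 ≤ p) : Φ.jNb ≠ 0 := by
  intro h
  have := Φ.ord_cIb_JN
  change Φ.cIb.ord Φ.jNb = -(p : ℤ) at this
  rw [h, Place.ord_zero] at this
  omega

variable [HasPrincipalDivisors L FL]

/-! ### Claim A: the cusps reduce to the cusps -/

open Classical in
/-- for every pole `Q` of `j̄`, the pole order is at most the contribution of the cusps over `Q` -/
theorem pole_le (Q : Place k Fk) :
    -Q.ord Φ.jb ≤ (if r Φ.cI = Q then 1 else 0) + (p : ℤ) * (if r Φ.c0 = Q then 1 else 0) := by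
  have key := key_ineq R Φ.JO Φ.jb_ne_zero Q
    (({Φ.cI, Φ.c0} : Finset (Place L FL)).filter (fun P => r P = Q))
    (fun P hP => (Finset.mem_filter.mp hP).2)
    (fun P hPQ hPT => by
      have h1 : P ≠ Φ.cI := by
        rintro rfl
        exact hPT (Finset.mem_filter.mpr ⟨by simp, hPQ⟩)
      have h2 : P ≠ Φ.c0 := by
        rintro rfl
        exact hPT (Finset.mem_filter.mpr ⟨by simp, hPQ⟩)
      exact ord_nonneg_of_mem P (Φ.reg_J P h1 h2))
  change _ ≤ Q.ord Φ.jb at key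
  rw [Finset.sum_filter, Finset.sum_pair Φ.ne] at key
  change (if r Φ.cI = Q then Φ.cI.ord Φ.J else 0) + (if r Φ.c0 = Q then Φ.c0.ord Φ.J else 0) ≤ _
    at key
  rw [Φ.ord_cI_J, Φ.ord_c0_J] at key
  split_ifs at key ⊢ <;> omega

open Classical in
/-- **Claim A**: the cusp `∞` reduces to the cusp `∞`, the cusp `0` does not, the reduction of `j`
has a pole of order `p` at the reduction of the cusp `0`, and no other pole. -/
theorem claimA (hp : 2 ≤ p) :
    r Φ.cI = Φ.cIb ∧ r Φ.c0 ≠ Φ.cIb ∧ (r Φ.c0).ord Φ.jb = -(p : ℤ) ∧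
      ∀ Q : Place k Fk, Q.ord Φ.jb < 0 → Q = Φ.cIb ∨ Q = r Φ.c0 := by
  set f : Place k Fk → ℤ := fun Q =>
    (if r Φ.cI = Q then 1 else 0) + (p : ℤ) * (if r Φ.c0 = Q then 1 else 0) + Q.ord Φ.jb with hf
  have hf0 : ∀ Q, 0 ≤ f Q := fun Q => by
    have := Φ.pole_le Q
    simp only [hf]
    omega
  have hsum : ∑ Q ∈ Φ.Sb, f Q =
      (if r Φ.cI ∈ Φ.Sb then 1 else 0) + (p : ℤ) * (if r Φ.c0 ∈ Φ.Sb then 1 else 0)
        - ((p : ℤ) + 1) := by
    simp only [hf]
    rw [Finset.sum_add_distrib, Finset.sum_add_distrib, ← Finset.mul_sum, Finset.sum_ite_eq,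
      Finset.sum_ite_eq]
    have h := Φ.sum_Sb
    rw [Finset.sum_neg_distrib] at h
    change -∑ Q ∈ Φ.Sb, Q.ord Φ.jb = _ at h
    omega
  have hsum0 : 0 ≤ ∑ Q ∈ Φ.Sb, f Q := Finset.sum_nonneg fun Q _ => hf0 Q
  have hmem : r Φ.cI ∈ Φ.Sb ∧ r Φ.c0 ∈ Φ.Sb := by
    rw [hsum] at hsum0
    constructor
    · by_contra h
      rw [if_neg h] at hsum0
      split_ifs at hsum0 <;> omega
    · by_contra h
      rw [if_neg h] at hsum0
      split_ifs at hsum0 <;> omega
  have hzero : ∀ Q ∈ Φ.Sb, f Q = 0 := by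
    have hs : ∑ Q ∈ Φ.Sb, f Q = 0 := by
      rw [hsum, if_pos hmem.1, if_pos hmem.2]
      ring
    exact (Finset.sum_eq_zero_iff_of_nonneg fun Q _ => hf0 Q).mp hs
  have hcIb : Φ.cIb ∈ Φ.Sb := by
    rw [Φ.mem_Sb, Φ.ord_cIb_J]
    omega
  have h1 := hzero _ hcIb
  simp only [hf] at h1
  have hIb : Φ.cIb.ord Φ.jb = -1 := Φ.ord_cIb_J
  rw [hIb] at h1
  have hp' : (2 : ℤ) ≤ p := by exact_mod_cast hp
  have hc0 : r Φ.c0 ≠ Φ.cIb := by
    intro h
    rw [if_pos h] at h1
    split_ifs at h1 <;> omega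
  have hcI : r Φ.cI = Φ.cIb := by
    by_contra h
    rw [if_neg h, if_neg hc0] at h1
    omega
  refine ⟨hcI, hc0, ?_, ?_⟩
  · have h2 := hzero _ hmem.2
    simp only [hf] at h2
    rw [if_pos trivial, if_neg (by rw [hcI]; exact fun h => hc0 h.symm)] at h2
    omega
  · intro Q hQ
    have hQS : Q ∈ Φ.Sb := (Φ.mem_Sb Q).mpr hQ
    have h2 := hzero _ hQS
    simp only [hf] at h2
    by_contra hcon
    push Not at hcon
    rw [if_neg (by rw [hcI]; exact fun h => hcon.1 h.symm),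
      if_neg (fun h => hcon.2 h.symm)] at h2
    omega

theorem red_cI (hp : 2 ≤ p) : r Φ.cI = Φ.cIb := (Φ.claimA hp).1

theorem red_c0_ne (hp : 2 ≤ p) : r Φ.c0 ≠ Φ.cIb := (Φ.claimA hp).2.1

theorem red_c0_ne_red_cI (hp : 2 ≤ p) : r Φ.c0 ≠ r Φ.cI := by
  rw [Φ.red_cI hp]
  exact Φ.red_c0_ne hp

theorem ord_red_c0_jb (hp : 2 ≤ p) : (r Φ.c0).ord Φ.jb = -(p : ℤ) := (Φ.claimA hp).2.2.1

theorem eq_of_ord_jb_neg (hp : 2 ≤ p) {Q : Place k Fk} (hQ : Q.ord Φ.jb < 0) :
    Q = Φ.cIb ∨ Q = r Φ.c0 := (Φ.claimA hp).2.2.2 Q hQ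

/-- the reduction of `j(q^p)` has at most a simple pole at the reduction of the cusp `0` -/
theorem ord_red_c0_jNb (hp : 2 ≤ p) : -1 ≤ (r Φ.c0).ord Φ.jNb := by
  classical
  have key := key_ineq R Φ.JNO (Φ.jNb_ne_zero hp) (r Φ.c0) {Φ.c0}
    (fun P hP => by rw [Finset.mem_singleton.mp hP])
    (fun P hPQ hPT => by
      have h2 : P ≠ Φ.c0 := fun h => hPT (Finset.mem_singleton.mpr h)
      have h1 : P ≠ Φ.cI := by
        rintro rfl
        exact Φ.red_c0_ne_red_cI hp hPQ.symm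
      exact ord_nonneg_of_mem P (Φ.reg_JN P h1 h2))
  rw [Finset.sum_singleton] at key
  exact le_trans Φ.ord_c0_JN key

/-! ### constants and the test functions -/

omit [HasPrincipalDivisors L FL] in
/-- `π` kills the nonunits of `A` -/
theorem pi_eq_zero_of_not_isUnit (R : RedDatum A π r) (c : A) (hc : ¬ IsUnit c) : π c = 0 := by
  by_contra h
  have hred : R.red ⟨algebraMap L FL (c : L), R.algebraMap_mem c⟩ ≠ 0 := by
    rw [R.red_algebraMap]
    exact (map_ne_zero_iff _ (algebraMap k Fk).injective).mpr h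
  obtain ⟨u, hu⟩ := isUnit_of_red_ne_zero R _ hred
  have h1 : ((u : R.O) : FL) * ((u⁻¹ : R.Oˣ) : R.O) = 1 := by
    have := congrArg (fun z : R.O => (z : FL)) u.mul_inv
    exact this
  rw [hu] at h1
  have hc0 : algebraMap L FL (c : L) ≠ 0 := left_ne_zero_of_mul_eq_one h1
  have hcL : (c : L) ≠ 0 := fun h0 => hc0 (by rw [h0, map_zero])
  have h2 : (((u⁻¹ : R.Oˣ) : R.O) : FL) = algebraMap L FL (c : L)⁻¹ := by
    rw [map_inv₀]
    exact eq_inv_of_mul_eq_one_right h1
  have h3 : (c : L)⁻¹ ∈ A := R.mem_of_algebraMap_mem _ (h2 ▸ Subtype.mem _)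
  exact hc ⟨⟨c, ⟨(c : L)⁻¹, h3⟩, Subtype.ext (mul_inv_cancel₀ hcL),
    Subtype.ext (inv_mul_cancel₀ hcL)⟩, rfl⟩

omit [HasPrincipalDivisors L FL] in
theorem pi_ne_zero_of_isUnit (c : A) (hc : IsUnit c) : π c ≠ 0 := (hc.map π).ne_zero

omit [HasPrincipalDivisors L FL] in
/-- the inverse of a non-integral constant is a nonunit of `A` -/
theorem exists_inv_of_notMem {a : L} (ha : a ∉ A) :
    ∃ c : A, (c : L) = a⁻¹ ∧ ¬ IsUnit c ∧ a ≠ 0 := by
  have ha0 : a ≠ 0 := fun h => ha (h ▸ A.zero_mem)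
  have h1 : a⁻¹ ∈ A := (A.mem_or_inv_mem a).resolve_left ha
  refine ⟨⟨a⁻¹, h1⟩, rfl, ?_, ha0⟩
  rintro ⟨u, hu⟩
  apply ha
  have h2 : ((u : A) : L) * ((u⁻¹ : Aˣ) : A) = 1 := by
    have := congrArg (fun z : A => (z : L)) u.mul_inv
    exact this
  rw [hu] at h2
  have : (((u⁻¹ : Aˣ) : A) : L) = a := by
    have h3 := eq_inv_of_mul_eq_one_right h2
    rw [h3]
    exact inv_inv a
  rw [← this]
  exact Subtype.mem _

/-- a constant of `A` as a Gauss-integral function -/
def cO (R : RedDatum A π r) (c : A) : R.O := ⟨algebraMap L FL (c : L), R.algebraMap_mem c⟩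

/-- the test function `j(q^p) - c j^p` -/
def gO (c : A) : R.O := Φ.JNO - cO R c * Φ.JO ^ p

omit [HasPrincipalDivisors L FL] in
theorem coe_gO (c : A) : ((Φ.gO c : R.O) : FL) = Φ.JN - algebraMap L FL (c : L) * Φ.J ^ p := rfl

omit [HasPrincipalDivisors L FL] in
theorem red_gO (c : A) : R.red (Φ.gO c) = Φ.jNb - algebraMap k Fk (π c) * Φ.jb ^ p := by
  rw [gO, map_sub, map_mul, map_pow]
  congr 2
  exact R.red_algebraMap c

omit [HasPrincipalDivisors L FL] in
theorem gO_mem (c : A) (P : Place L FL) (h1 : P ≠ Φ.cI) (h2 : P ≠ Φ.c0) :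
    ((Φ.gO c : R.O) : FL) ∈ P.toValuationSubring := by
  rw [coe_gO]
  exact sub_mem (Φ.reg_JN P h1 h2)
    (mul_mem (P.algebraMap_mem' _) (pow_mem (Φ.reg_J P h1 h2) p))

/-- the test function `1 - c j` -/
def hO (c : A) : R.O := 1 - cO R c * Φ.JO

/-- the test function `1 - c j(q^p)` -/
def hNO (c : A) : R.O := 1 - cO R c * Φ.JNO

omit [HasPrincipalDivisors L FL] in
theorem coe_hO (c : A) : ((Φ.hO c : R.O) : FL) = 1 - algebraMap L FL (c : L) * Φ.J := rfl

omit [HasPrincipalDivisors L FL] in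
theorem coe_hNO (c : A) : ((Φ.hNO c : R.O) : FL) = 1 - algebraMap L FL (c : L) * Φ.JN := rfl

omit [HasPrincipalDivisors L FL] in
theorem red_hO (c : A) (hc : ¬ IsUnit c) : R.red (Φ.hO c) = 1 := by
  rw [hO, map_sub, map_one, map_mul]
  have : R.red (cO R c) = 0 := by
    rw [cO, R.red_algebraMap, pi_eq_zero_of_not_isUnit R c hc, map_zero]
  rw [this, zero_mul, sub_zero]

omit [HasPrincipalDivisors L FL] in
theorem red_hNO (c : A) (hc : ¬ IsUnit c) : R.red (Φ.hNO c) = 1 := by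
  rw [hNO, map_sub, map_one, map_mul]
  have : R.red (cO R c) = 0 := by
    rw [cO, R.red_algebraMap, pi_eq_zero_of_not_isUnit R c hc, map_zero]
  rw [this, zero_mul, sub_zero]

omit [HasPrincipalDivisors L FL] in
theorem hO_mem (c : A) (P : Place L FL) (h1 : P ≠ Φ.cI) (h2 : P ≠ Φ.c0) :
    ((Φ.hO c : R.O) : FL) ∈ P.toValuationSubring := by
  rw [coe_hO]
  exact sub_mem (one_mem _) (mul_mem (P.algebraMap_mem' _) (Φ.reg_J P h1 h2))

omit [HasPrincipalDivisors L FL] in
theorem hNO_mem (c : A) (P : Place L FL) (h1 : P ≠ Φ.cI) (h2 : P ≠ Φ.c0) :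
    ((Φ.hNO c : R.O) : FL) ∈ P.toValuationSubring := by
  rw [coe_hNO]
  exact sub_mem (one_mem _) (mul_mem (P.algebraMap_mem' _) (Φ.reg_JN P h1 h2))

/-! ### places with given values -/

omit [HasPrincipalDivisors L FL] in
theorem ne_cI_of_value {x : Place L FL} {a : L}
    (hxa : Φ.J - algebraMap L FL a ∈ x.toValuationSubring.nonunits) : x ≠ Φ.cI := by
  rintro rfl
  exact not_mem_of_ord_neg _ (by rw [Φ.ord_cI_J]; omega) (mem_of_value _ hxa)

omit [HasPrincipalDivisors L FL] in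
theorem ne_c0_of_value (hp : 2 ≤ p) {x : Place L FL} {a : L}
    (hxa : Φ.J - algebraMap L FL a ∈ x.toValuationSubring.nonunits) : x ≠ Φ.c0 := by
  rintro rfl
  exact not_mem_of_ord_neg _ (by rw [Φ.ord_c0_J]; omega) (mem_of_value _ hxa)

/-- **A place with a non-integral value of `j` reduces to a cusp.** -/
theorem red_mem_cusps (hp : 2 ≤ p) {x : Place L FL} {a : L}
    (hxa : Φ.J - algebraMap L FL a ∈ x.toValuationSubring.nonunits) (ha : a ∉ A) :
    r x = Φ.cIb ∨ r x = r Φ.c0 := by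
  classical
  obtain ⟨c, hca, hcu, ha0⟩ := exists_inv_of_notMem ha
  by_contra hcon
  push Not at hcon
  have hred : R.red (Φ.hO c) ≠ 0 := by
    rw [Φ.red_hO c hcu]
    exact one_ne_zero
  have key := key_ineq R (Φ.hO c) hred (r x) {x}
    (fun P hP => by rw [Finset.mem_singleton.mp hP])
    (fun P hPQ hPT => by
      have h1 : P ≠ Φ.cI := by
        rintro rfl
        exact hcon.1 (by rw [← hPQ, Φ.red_cI hp])
      have h2 : P ≠ Φ.c0 := by
        rintro rfl
        exact hcon.2 hPQ.symm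
      exact ord_nonneg_of_mem P (Φ.hO_mem c P h1 h2))
  rw [Finset.sum_singleton, Φ.red_hO c hcu, Place.ord_one] at key
  have hpos : 0 < x.ord ((Φ.hO c : R.O) : FL) := by
    refine ord_pos_of_mem_nonunits x (ne_zero_of_red_ne_zero R _ hred) ?_
    rw [coe_hO, hca]
    exact one_sub_inv_mul_mem_nonunits x ha0 hxa
  omega

/-- **(R-0)**: `J(x) = a ∉ A`, `JN(x) = c a ^ p` with `c` in the maximal ideal of `A`: `x` reduces to
the reduction of the cusp `0`. -/
theorem red_eq_c0 (hp : 2 ≤ p) {x : Place L FL} {a b : L} (c : A)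
    (hxa : Φ.J - algebraMap L FL a ∈ x.toValuationSubring.nonunits)
    (hxb : Φ.JN - algebraMap L FL b ∈ x.toValuationSubring.nonunits)
    (ha : a ∉ A) (hc : ¬ IsUnit c) (hbc : b = (c : L) * a ^ p) : r x = r Φ.c0 := by
  classical
  rcases Φ.red_mem_cusps hp hxa ha with hx | hx
  swap
  · exact hx
  exfalso
  have hredg : R.red (Φ.gO c) = Φ.jNb := by
    rw [red_gO, pi_eq_zero_of_not_isUnit R c hc, map_zero, zero_mul, sub_zero]
  have hred : R.red (Φ.gO c) ≠ 0 := by
    rw [hredg]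
    exact Φ.jNb_ne_zero hp
  have hg0 : ((Φ.gO c : R.O) : FL) ≠ 0 := ne_zero_of_red_ne_zero R _ hred
  have hxI : Φ.cI ≠ x := (Φ.ne_cI_of_value hxa).symm
  have key := key_ineq R (Φ.gO c) hred Φ.cIb {Φ.cI, x}
    (fun P hP => by
      rw [Finset.mem_insert, Finset.mem_singleton] at hP
      rcases hP with rfl | rfl
      · exact Φ.red_cI hp
      · exact hx)
    (fun P hPQ hPT => by
      rw [Finset.mem_insert, Finset.mem_singleton, not_or] at hPT
      have h2 : P ≠ Φ.c0 := by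
        rintro rfl
        exact Φ.red_c0_ne hp hPQ
      exact ord_nonneg_of_mem P (Φ.gO_mem c P hPT.1 h2))
  rw [Finset.sum_pair hxI, hredg] at key
  have hIb : Φ.cIb.ord Φ.jNb = -(p : ℤ) := Φ.ord_cIb_JN
  rw [hIb] at key
  have h1 : -(p : ℤ) ≤ Φ.cI.ord ((Φ.gO c : R.O) : FL) := by
    rw [coe_gO] at hg0 ⊢
    refine le_ord_sub _ hg0 (Or.inr (by rw [Φ.ord_cI_JN])) ?_
    rcases eq_or_ne (c : L) 0 with h0 | h0
    · left
      rw [h0, map_zero, zero_mul]
    · right
      rw [ord_const_mul _ h0, ord_natPow, Φ.ord_cI_J]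
      omega
  have h2 : 0 < x.ord ((Φ.gO c : R.O) : FL) := by
    refine ord_pos_of_mem_nonunits x hg0 ?_
    rw [coe_gO]
    exact eval_mem_nonunits x hxa hxb hbc
  omega

/-- **(R-∞)**: `J(x) = a ∉ A`, `JN(x) = c a ^ p` with `c` a unit of `A`: `x` reduces to the reduction
of the cusp `∞`. -/
theorem red_eq_cI (hp : 2 ≤ p) {x : Place L FL} {a b : L} (c : A)
    (hxa : Φ.J - algebraMap L FL a ∈ x.toValuationSubring.nonunits)
    (hxb : Φ.JN - algebraMap L FL b ∈ x.toValuationSubring.nonunits)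
    (ha : a ∉ A) (hc : IsUnit c) (hbc : b = (c : L) * a ^ p) : r x = r Φ.cI := by
  classical
  rw [Φ.red_cI hp]
  rcases Φ.red_mem_cusps hp hxa ha with hx | hx
  · exact hx
  exfalso
  have hp' : (2 : ℤ) ≤ p := by exact_mod_cast hp
  have hπc : π c ≠ 0 := pi_ne_zero_of_isUnit c hc
  have hcL : (c : L) ≠ 0 := by
    intro h0
    apply hπc
    have : c = 0 := Subtype.ext h0
    rw [this, map_zero]
  -- the order of the reduction at the reduction of the cusp `0`
  have hjb0 : Φ.jb ≠ 0 := Φ.jb_ne_zero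
  have hjNb0 : Φ.jNb ≠ 0 := Φ.jNb_ne_zero hp
  have ht0 : algebraMap k Fk (π c) * Φ.jb ^ p ≠ 0 :=
    mul_ne_zero ((map_ne_zero_iff _ (algebraMap k Fk).injective).mpr hπc) (pow_ne_zero _ hjb0)
  have hordt : (r Φ.c0).ord (algebraMap k Fk (π c) * Φ.jb ^ p) = -((p : ℤ) * p) := by
    rw [ord_const_mul _ hπc, ord_natPow, Φ.ord_red_c0_jb hp]
    ring
  have hordN := Φ.ord_red_c0_jNb hp
  have hlt : (r Φ.c0).ord (algebraMap k Fk (π c) * Φ.jb ^ p) < (r Φ.c0).ord Φ.jNb := by
    rw [hordt]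
    nlinarith
  have hordg : (r Φ.c0).ord (R.red (Φ.gO c)) = -((p : ℤ) * p) := by
    rw [red_gO, ord_sub_eq_of_lt _ hjNb0 ht0 hlt, hordt]
  have hred : R.red (Φ.gO c) ≠ 0 := by
    intro h0
    rw [h0, Place.ord_zero] at hordg
    nlinarith
  have hg0 : ((Φ.gO c : R.O) : FL) ≠ 0 := ne_zero_of_red_ne_zero R _ hred
  have hx0 : Φ.c0 ≠ x := (Φ.ne_c0_of_value hp hxa).symm
  have key := key_ineq R (Φ.gO c) hred (r Φ.c0) {Φ.c0, x}
    (fun P hP => by
      rw [Finset.mem_insert, Finset.mem_singleton] at hP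
      rcases hP with rfl | rfl
      · rfl
      · exact hx)
    (fun P hPQ hPT => by
      rw [Finset.mem_insert, Finset.mem_singleton, not_or] at hPT
      have h1 : P ≠ Φ.cI := by
        rintro rfl
        exact Φ.red_c0_ne_red_cI hp hPQ.symm
      exact ord_nonneg_of_mem P (Φ.gO_mem c P h1 hPT.1))
  rw [Finset.sum_pair hx0, hordg] at key
  have h1 : -((p : ℤ) * p) ≤ Φ.c0.ord ((Φ.gO c : R.O) : FL) := by
    rw [coe_gO] at hg0 ⊢
    refine le_ord_sub _ hg0 (Or.inr ?_) (Or.inr ?_)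
    · have := Φ.ord_c0_JN
      nlinarith
    · rw [ord_const_mul _ hcL, ord_natPow, Φ.ord_c0_J]
      nlinarith
  have h2 : 0 < x.ord ((Φ.gO c : R.O) : FL) := by
    refine ord_pos_of_mem_nonunits x hg0 ?_
    rw [coe_gO]
    exact eval_mem_nonunits x hxa hxb hbc
  omega

/-- the mirror test function `j - c j(q^p)^p` -/
def gO' (c : A) : R.O := Φ.JO - cO R c * Φ.JNO ^ p

omit [HasPrincipalDivisors L FL] in
theorem coe_gO' (c : A) :
    ((Φ.gO' c : R.O) : FL) = Φ.J - algebraMap L FL (c : L) * Φ.JN ^ p := rfl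

omit [HasPrincipalDivisors L FL] in
theorem red_gO' (c : A) :
    R.red (Φ.gO' c) = Φ.jb - algebraMap k Fk (π c) * Φ.jNb ^ p := by
  rw [gO', map_sub, map_mul, map_pow]
  congr 2
  exact R.red_algebraMap c

omit [HasPrincipalDivisors L FL] in
theorem gO'_mem (c : A) (P : Place L FL) (h1 : P ≠ Φ.cI) (h2 : P ≠ Φ.c0) :
    ((Φ.gO' c : R.O) : FL) ∈ P.toValuationSubring := by
  rw [coe_gO']
  exact sub_mem (Φ.reg_J P h1 h2)
    (mul_mem (P.algebraMap_mem' _) (pow_mem (Φ.reg_JN P h1 h2) p))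

/-- **(R-∞), mirror form**: `J(x) = a ∉ A`, `JN(x) = b` and `a = c b ^ p` with `c` in the maximal
ideal of `A`: `x` reduces to the reduction of the cusp `∞`. -/
theorem red_eq_cI' (hp : 2 ≤ p) {x : Place L FL} {a b : L} (c : A)
    (hxa : Φ.J - algebraMap L FL a ∈ x.toValuationSubring.nonunits)
    (hxb : Φ.JN - algebraMap L FL b ∈ x.toValuationSubring.nonunits)
    (ha : a ∉ A) (hc : ¬ IsUnit c) (hac : a = (c : L) * b ^ p) : r x = r Φ.cI := by
  classical
  rw [Φ.red_cI hp]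
  rcases Φ.red_mem_cusps hp hxa ha with hx | hx
  · exact hx
  exfalso
  have hredg : R.red (Φ.gO' c) = Φ.jb := by
    rw [red_gO', pi_eq_zero_of_not_isUnit R c hc, map_zero, zero_mul, sub_zero]
  have hred : R.red (Φ.gO' c) ≠ 0 := by
    rw [hredg]
    exact Φ.jb_ne_zero
  have hg0 : ((Φ.gO' c : R.O) : FL) ≠ 0 := ne_zero_of_red_ne_zero R _ hred
  have hx0 : Φ.c0 ≠ x := (Φ.ne_c0_of_value hp hxa).symm
  have key := key_ineq R (Φ.gO' c) hred (r Φ.c0) {Φ.c0, x}
    (fun P hP => by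
      rw [Finset.mem_insert, Finset.mem_singleton] at hP
      rcases hP with rfl | rfl
      · rfl
      · exact hx)
    (fun P hPQ hPT => by
      rw [Finset.mem_insert, Finset.mem_singleton, not_or] at hPT
      have h1 : P ≠ Φ.cI := by
        rintro rfl
        exact Φ.red_c0_ne_red_cI hp hPQ.symm
      exact ord_nonneg_of_mem P (Φ.gO'_mem c P h1 hPT.1))
  rw [Finset.sum_pair hx0, hredg, Φ.ord_red_c0_jb hp] at key
  have h1 : -(p : ℤ) ≤ Φ.c0.ord ((Φ.gO' c : R.O) : FL) := by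
    rw [coe_gO'] at hg0 ⊢
    refine le_ord_sub _ hg0 (Or.inr (by rw [Φ.ord_c0_J])) ?_
    rcases eq_or_ne (c : L) 0 with h0 | h0
    · left
      rw [h0, map_zero, zero_mul]
    · right
      rw [ord_const_mul _ h0, ord_natPow]
      have := Φ.ord_c0_JN
      have hp' : (0 : ℤ) ≤ p := Int.natCast_nonneg p
      nlinarith
  have h2 : 0 < x.ord ((Φ.gO' c : R.O) : FL) := by
    refine ord_pos_of_mem_nonunits x hg0 ?_
    rw [coe_gO']
    exact eval_mem_nonunits x hxb hxa hac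
  omega

/-- **Uniqueness at the cusp `0`**: two places with the same non-integral value of `j(q^p)` which
reduce to the reduction of the cusp `0` are equal. -/
theorem unique_c0 (hp : 2 ≤ p) {x x' : Place L FL} {a a' b : L}
    (hxa : Φ.J - algebraMap L FL a ∈ x.toValuationSubring.nonunits)
    (hxa' : Φ.J - algebraMap L FL a' ∈ x'.toValuationSubring.nonunits)
    (hxb : Φ.JN - algebraMap L FL b ∈ x.toValuationSubring.nonunits)
    (hxb' : Φ.JN - algebraMap L FL b ∈ x'.toValuationSubring.nonunits)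
    (hb : b ∉ A) (hx : r x = r Φ.c0) (hx' : r x' = r Φ.c0) : x = x' := by
  classical
  by_contra hne
  obtain ⟨c, hcb, hcu, hb0⟩ := exists_inv_of_notMem hb
  have hred : R.red (Φ.hNO c) ≠ 0 := by
    rw [Φ.red_hNO c hcu]
    exact one_ne_zero
  have hg0 : ((Φ.hNO c : R.O) : FL) ≠ 0 := ne_zero_of_red_ne_zero R _ hred
  have hx0 : Φ.c0 ≠ x := (Φ.ne_c0_of_value hp hxa).symm
  have hx0' : Φ.c0 ≠ x' := (Φ.ne_c0_of_value hp hxa').symm
  have key := key_ineq R (Φ.hNO c) hred (r Φ.c0) {Φ.c0, x, x'}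
    (fun P hP => by
      rw [Finset.mem_insert, Finset.mem_insert, Finset.mem_singleton] at hP
      rcases hP with rfl | rfl | rfl
      · rfl
      · exact hx
      · exact hx')
    (fun P hPQ hPT => by
      rw [Finset.mem_insert, Finset.mem_insert, Finset.mem_singleton, not_or, not_or] at hPT
      have h1 : P ≠ Φ.cI := by
        rintro rfl
        exact Φ.red_c0_ne_red_cI hp hPQ.symm
      exact ord_nonneg_of_mem P (Φ.hNO_mem c P h1 hPT.1))
  rw [Finset.sum_insert (by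
      rw [Finset.mem_insert, Finset.mem_singleton, not_or]
      exact ⟨hx0, hx0'⟩), Finset.sum_pair hne, Φ.red_hNO c hcu, Place.ord_one] at key
  have h1 : -1 ≤ Φ.c0.ord ((Φ.hNO c : R.O) : FL) := by
    rw [coe_hNO] at hg0 ⊢
    refine le_ord_sub _ hg0 (Or.inr (by rw [Place.ord_one]; omega)) ?_
    rcases eq_or_ne (c : L) 0 with h0 | h0
    · left
      rw [h0, map_zero, zero_mul]
    · right
      rw [ord_const_mul _ h0]
      exact Φ.ord_c0_JN
  have h2 : 0 < x.ord ((Φ.hNO c : R.O) : FL) := by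
    refine ord_pos_of_mem_nonunits x hg0 ?_
    rw [coe_hNO, hcb]
    exact one_sub_inv_mul_mem_nonunits x hb0 hxb
  have h3 : 0 < x'.ord ((Φ.hNO c : R.O) : FL) := by
    refine ord_pos_of_mem_nonunits x' hg0 ?_
    rw [coe_hNO, hcb]
    exact one_sub_inv_mul_mem_nonunits x' hb0 hxb'
  omega

/-- **Uniqueness at the cusp `∞`**: two places with the same non-integral value of `j` which reduce
to the reduction of the cusp `∞` are equal. -/
theorem unique_cI (hp : 2 ≤ p) {x x' : Place L FL} {a : L}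
    (hxa : Φ.J - algebraMap L FL a ∈ x.toValuationSubring.nonunits)
    (hxa' : Φ.J - algebraMap L FL a ∈ x'.toValuationSubring.nonunits)
    (ha : a ∉ A) (hx : r x = r Φ.cI) (hx' : r x' = r Φ.cI) : x = x' := by
  classical
  by_contra hne
  obtain ⟨c, hca, hcu, ha0⟩ := exists_inv_of_notMem ha
  have hred : R.red (Φ.hO c) ≠ 0 := by
    rw [Φ.red_hO c hcu]
    exact one_ne_zero
  have hg0 : ((Φ.hO c : R.O) : FL) ≠ 0 := ne_zero_of_red_ne_zero R _ hred
  have hxI : Φ.cI ≠ x := (Φ.ne_cI_of_value hxa).symm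
  have hxI' : Φ.cI ≠ x' := (Φ.ne_cI_of_value hxa').symm
  have key := key_ineq R (Φ.hO c) hred (r Φ.cI) {Φ.cI, x, x'}
    (fun P hP => by
      rw [Finset.mem_insert, Finset.mem_insert, Finset.mem_singleton] at hP
      rcases hP with rfl | rfl | rfl
      · rfl
      · exact hx
      · exact hx')
    (fun P hPQ hPT => by
      rw [Finset.mem_insert, Finset.mem_insert, Finset.mem_singleton, not_or, not_or] at hPT
      have h2 : P ≠ Φ.c0 := by
        rintro rfl
        exact Φ.red_c0_ne_red_cI hp hPQ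
      exact ord_nonneg_of_mem P (Φ.hO_mem c P hPT.1 h2))
  rw [Finset.sum_insert (by
      rw [Finset.mem_insert, Finset.mem_singleton, not_or]
      exact ⟨hxI, hxI'⟩), Finset.sum_pair hne, Φ.red_hO c hcu, Place.ord_one] at key
  have h1 : -1 ≤ Φ.cI.ord ((Φ.hO c : R.O) : FL) := by
    rw [coe_hO] at hg0 ⊢
    refine le_ord_sub _ hg0 (Or.inr (by rw [Place.ord_one]; omega)) ?_
    rcases eq_or_ne (c : L) 0 with h0 | h0
    · left
      rw [h0, map_zero, zero_mul]
    · right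
      rw [ord_const_mul _ h0, Φ.ord_cI_J]
  have h2 : 0 < x.ord ((Φ.hO c : R.O) : FL) := by
    refine ord_pos_of_mem_nonunits x hg0 ?_
    rw [coe_hO, hca]
    exact one_sub_inv_mul_mem_nonunits x ha0 hxa
  have h3 : 0 < x'.ord ((Φ.hO c : R.O) : FL) := by
    refine ord_pos_of_mem_nonunits x' hg0 ?_
    rw [coe_hO, hca]
    exact one_sub_inv_mul_mem_nonunits x' ha0 hxa'
  omega

end Frame

end Fermat.Agent.S15.E2.RedDict.Abstract
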