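import Mathlib
import Fermat.Prelude.Def_AlgebraicCurve_DivisorClassGroup
import Fermat.Agent.S24.Ord
import Fermat.Agent.S36.K0DescentLaurent

/-!
# PROJECT M (S15), block [E2], leaf (E2-r): the `q`-adic place of a field of Laurent series

`K` a field, `E` an intermediate field of `K((q)) / K`.  The order of the `q`-expansion defines a
place `qPlace E hpole` of `E / K` as soon as `E` contains a series with a pole; if `E` contains a
series of order `1`, then `(qPlace E hpole).ord f` is the order of the series `f`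
(`ord_qPlace`).  For `E = ℚ̄(X₀(N))` this is the cusp `∞` (main's `S36.K0DescentLaurent.cuspPlace`,
`qPlace_bar_eq`), for `E = k(X₀(N))` it is the cusp `∞` on the residue side.

`ord_eq_of_order_fun` is the general statement: a place whose valuation ring is cut out by an
integer valued multiplicative function `o` taking the value `1` has `ord = o`.
-/

set_option autoImplicit false

noncomputable section

namespace Fermat.Agent.S15.E2.RedDict.QPlace

open AlgebraicCurve HahnSeries

/-! ### `ord` from an order function -/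

section General

variable {K F : Type*} [Field K] [Field F] [Algebra K F]

theorem ord_eq_of_order_fun (v : Place K F) (o : F → ℤ)
    (hmem : ∀ x : F, x ≠ 0 → (x ∈ v.toValuationSubring ↔ 0 ≤ o x))
    (hmul : ∀ x y : F, x ≠ 0 → y ≠ 0 → o (x * y) = o x + o y) (hone : o 1 = 0)
    (hunif : ∃ ϖ : F, ϖ ≠ 0 ∧ o ϖ = 1) (f : F) (hf : f ≠ 0) : v.ord f = o f := by
  have hinv : ∀ x : F, x ≠ 0 → o x⁻¹ = -o x := fun x hx => by
    have h := hmul x x⁻¹ hx (inv_ne_zero hx)
    rw [mul_inv_cancel₀ hx, hone] at h
    omega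
  have hpow : ∀ x : F, x ≠ 0 → ∀ n : ℕ, o (x ^ n) = n * o x := by
    intro x hx n
    induction n with
    | zero => simp [hone]
    | succ n ih =>
      rw [pow_succ, hmul _ _ (pow_ne_zero n hx) hx, ih]
      push_cast
      ring
  have hzpow : ∀ x : F, x ≠ 0 → ∀ n : ℤ, o (x ^ n) = n * o x := by
    intro x hx n
    rcases Int.eq_nat_or_neg n with ⟨m, rfl | rfl⟩
    · rw [zpow_natCast, hpow x hx]
    · rw [zpow_neg, zpow_natCast, hinv _ (pow_ne_zero m hx), hpow x hx]
      ring
  have hunit : ∀ u : v.toValuationSubringˣ, o ((u : v.toValuationSubring) : F) = 0 := by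
    intro u
    have h1 : ((u : v.toValuationSubring) : F) * (((u⁻¹ : v.toValuationSubringˣ) :
        v.toValuationSubring) : F) = 1 := by
      have := congrArg (fun z : v.toValuationSubring => (z : F)) u.mul_inv
      exact this
    have hu0 : ((u : v.toValuationSubring) : F) ≠ 0 := left_ne_zero_of_mul_eq_one h1
    have hu0' : (((u⁻¹ : v.toValuationSubringˣ) : v.toValuationSubring) : F) ≠ 0 :=
      right_ne_zero_of_mul_eq_one h1
    have h2 := hmul _ _ hu0 hu0'
    rw [h1, hone] at h2
    have h3 := (hmem _ hu0).mp (Subtype.mem _)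
    have h4 := (hmem _ hu0').mp (Subtype.mem _)
    omega
  obtain ⟨π, hπ⟩ := IsDiscreteValuationRing.exists_irreducible v.toValuationSubring
  have hπF : (π : F) ≠ 0 := fun h0 => hπ.ne_zero (Subtype.ext h0)
  have he : 0 ≤ o (π : F) := (hmem _ hπF).mp π.2
  have key : ∀ g : F, g ≠ 0 → o g = v.ord g * o (π : F) := by
    intro g hg
    obtain ⟨u, hu⟩ := v.exists_unit_mul_zpow hg hπ
    have hu0 : ((u : v.toValuationSubring) : F) ≠ 0 := by
      intro h0
      rw [h0, zero_mul] at hu
      exact hg hu
    conv_lhs => rw [hu]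
    rw [hmul _ _ hu0 (zpow_ne_zero _ hπF), hunit u, hzpow _ hπF, zero_add]
  obtain ⟨ϖ, hϖ0, hϖ⟩ := hunif
  have h1 := key ϖ hϖ0
  rw [hϖ] at h1
  have he1 : o (π : F) = 1 := Int.eq_one_of_dvd_one he ⟨v.ord ϖ, by rw [h1]; ring⟩
  rw [key f hf, he1, mul_one]

end General

/-! ### the `q`-adic place -/

section QPlace

variable {K : Type*} [Field K] (E : IntermediateField K (LaurentSeries K))

/-- the order of the `q`-expansion -/
def qOrd (x : E) : ℤ := (x : LaurentSeries K).order

theorem qOrd_mul (x y : E) (hx : x ≠ 0) (hy : y ≠ 0) : qOrd E (x * y) = qOrd E x + qOrd E y := by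
  have hx' : (x : LaurentSeries K) ≠ 0 := fun h => hx (Subtype.ext h)
  have hy' : (y : LaurentSeries K) ≠ 0 := fun h => hy (Subtype.ext h)
  exact HahnSeries.order_mul hx' hy'

theorem qOrd_one : qOrd E (1 : E) = 0 := by
  show ((1 : E) : LaurentSeries K).order = 0
  exact order_one

theorem qOrd_inv (x : E) (hx : x ≠ 0) : qOrd E x⁻¹ = -qOrd E x := by
  have hx' : (x : LaurentSeries K) ≠ 0 := fun h => hx (Subtype.ext h)
  exact Fermat.Agent.S36.K0DescentLaurent.order_inv_eq _ hx'

/-- the ring of the series of `E` without pole -/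
def qRing : ValuationSubring E where
  carrier := {x | 0 ≤ qOrd E x}
  mul_mem' := by
    intro x y hx hy
    rcases eq_or_ne x 0 with rfl | hx0
    · simp [qOrd]
    rcases eq_or_ne y 0 with rfl | hy0
    · simp [qOrd]
    show 0 ≤ qOrd E (x * y)
    rw [qOrd_mul E x y hx0 hy0]
    exact add_nonneg hx hy
  one_mem' := by
    show 0 ≤ qOrd E 1
    rw [qOrd_one]
  add_mem' := by
    intro x y hx hy
    show 0 ≤ ((x + y : E) : LaurentSeries K).order
    by_cases hxy : (x : LaurentSeries K) + (y : LaurentSeries K) = 0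
    · have : ((x + y : E) : LaurentSeries K) = 0 := hxy
      rw [this, order_zero]
    · exact le_trans (le_min hx hy) (min_order_le_order_add hxy)
  zero_mem' := by
    show 0 ≤ ((0 : E) : LaurentSeries K).order
    simp
  neg_mem' := by
    intro x hx
    show 0 ≤ ((-x : E) : LaurentSeries K).order
    have : ((-x : E) : LaurentSeries K) = -(x : LaurentSeries K) := rfl
    rw [this, order_neg]
    exact hx
  mem_or_inv_mem' := by
    intro x
    rcases eq_or_ne x 0 with rfl | hx0
    · left; show 0 ≤ qOrd E 0; simp [qOrd]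
    by_cases h : 0 ≤ qOrd E x
    · exact Or.inl h
    · right
      show 0 ≤ qOrd E x⁻¹
      rw [qOrd_inv E x hx0]
      omega

theorem mem_qRing (x : E) : x ∈ qRing E ↔ 0 ≤ qOrd E x := Iff.rfl

/-- **The `q`-adic place** of `E` (it needs a series with a pole). -/
def qPlace (hpole : ∃ x : E, qOrd E x < 0) : Place K E where
  toValuationSubring := qRing E
  algebraMap_mem' a := by
    rw [mem_qRing]
    show 0 ≤ ((algebraMap K E a : E) : LaurentSeries K).order
    have : ((algebraMap K E a : E) : LaurentSeries K) = algebraMap K (LaurentSeries K) a := rfl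
    rw [this, Fermat.Agent.S36.K0DescentLaurent.order_algebraMap_eq_zero]
  ne_top' := by
    obtain ⟨x, hx⟩ := hpole
    intro h
    have hmem : x ∈ qRing E := h ▸ ValuationSubring.mem_top x
    rw [mem_qRing] at hmem
    omega
  isPrincipalIdealRing' :=
    Fermat.Agent.S36.K0DescentLaurent.isPrincipalIdealRing_of_order (qRing E) (qOrd E)
      (fun x _ => mem_qRing E x) (fun x y hx hy => qOrd_mul E x y hx hy) (qOrd_one E)

theorem mem_qPlace (hpole : ∃ x : E, qOrd E x < 0) (x : E) :
    x ∈ (qPlace E hpole).toValuationSubring ↔ 0 ≤ qOrd E x := Iff.rfl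

/-- **The order at the `q`-adic place is the order of the series**, when `E` contains a series of
order one. -/
theorem ord_qPlace (hpole : ∃ x : E, qOrd E x < 0) (hunif : ∃ ϖ : E, qOrd E ϖ = 1)
    (f : E) (hf : f ≠ 0) : (qPlace E hpole).ord f = qOrd E f := by
  refine ord_eq_of_order_fun (qPlace E hpole) (qOrd E) (fun x _ => mem_qPlace E hpole x)
    (fun x y hx hy => qOrd_mul E x y hx hy) (qOrd_one E) ?_ f hf
  obtain ⟨ϖ, hϖ⟩ := hunif
  refine ⟨ϖ, ?_, hϖ⟩
  rintro rfl
  have : qOrd E (0 : E) = 0 := by simp [qOrd]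
  omega

end QPlace

end Fermat.Agent.S15.E2.RedDict.QPlace
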