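import Mathlib
import Fermat.Agent.S15.E2.RedDict.QPlace
import Fermat.Agent.S15.E2.RedDict.Abstract
import Fermat.Agent.S24.OrbitsCuspAlt
import Fermat.Agent.S20.CountFinal
import Fermat.Agent.S18.C.Forms
import Fermat.Agent.S18.B.FkBasics
import Fermat.Agent.S28.ModPolyPrime
import Fermat.Agent.S37.Cusps.LaurentVal
import Fermat.Agent.S37.Cusps.CuspFamily

/-!
# PROJECT M (S15), block [E2], leaf (E2-r): the two cusps of `X₀(N)`, `N` prime, over `ℚ̄`

`F = ℚ̄(X₀(N)) = modularFunctionFieldBar N`, `j = jgen N`, `jN N = j(q^N)`.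

* `cuspInf N` : the `q`-adic place (the cusp `∞`), `ord j = -1`, `ord j(q^N) = -N`;
* for `N` prime, `j` has exactly one other pole `cuspZero hN` (the cusp `0`), of order `N`
  (S24 cusp count + S20 orbit count + the fundamental identity);
* `j(q^N)` is regular outside the two cusps (prime level modular equation), and has at most a simple
  pole at `cuspZero` (`[F : ℚ̄(j(q^N))] ≤ N + 1` from the second root `j` of the modular equation).
-/

set_option autoImplicit false

noncomputable section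

namespace Fermat.Agent.S15.E2.RedDict.X0Zero

open AlgebraicCurve ModularCurve IntermediateField
open Fermat.Agent.S24.DegreeAlg Fermat.Agent.S24.FF Fermat.Agent.S24.Ord
open Fermat.Agent.S15.E2.RedDict.QPlace Fermat.Agent.S15.E2.RedDict.Abstract
open Fermat.Agent.S37.Cusps

local notation "Kb" => AlgebraicClosure ℚ

variable (N : ℕ) [NeZero N]

/-- `j(q^N)` as an element of `ℚ̄(X₀(N))` -/
def jN : ↥(modularFunctionFieldBar N) := jdivF N ⟨N, dvd_rfl⟩

theorem coe_jgen_eq : ((jgen N : ↥(modularFunctionFieldBar N)) : LaurentSeries Kb) = jqModC Kb := by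
  rw [coe_jgen, CuspFamily.coeffEmb_jq]

theorem coe_jN : ((jN N : ↥(modularFunctionFieldBar N)) : LaurentSeries Kb) =
    qExpand Kb N (jqModC Kb) := by
  show jdiv Kb N ⟨N, dvd_rfl⟩ = _
  rw [jdiv_eq_qExpand, CuspFamily.coeffEmb_jq]

theorem qOrd_jgen : qOrd (modularFunctionFieldBar N) (jgen N) = -1 := by
  rw [qOrd, coe_jgen_eq, LaurentVal.order_jqModC]

theorem qOrd_jN : qOrd (modularFunctionFieldBar N) (jN N) = -(N : ℤ) := by
  rw [qOrd, coe_jN, LaurentVal.order_qExpand N (jqModC_ne_zero_of_nontrivial Kb),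
    LaurentVal.order_jqModC]
  ring

theorem jgen_ne_zero : jgen N ≠ 0 := by
  intro h
  have := qOrd_jgen N
  rw [h] at this
  simp [qOrd] at this

theorem jN_ne_zero : jN N ≠ 0 := by
  intro h
  have := qOrd_jN N
  rw [h] at this
  simp [qOrd] at this
  exact NeZero.ne N this

theorem exists_pole : ∃ x : ↥(modularFunctionFieldBar N), qOrd (modularFunctionFieldBar N) x < 0 :=
  ⟨jgen N, by rw [qOrd_jgen]; norm_num⟩

theorem exists_unif : ∃ ϖ : ↥(modularFunctionFieldBar N), qOrd (modularFunctionFieldBar N) ϖ = 1 :=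
  ⟨(jgen N)⁻¹, by rw [qOrd_inv _ _ (jgen_ne_zero N), qOrd_jgen]; norm_num⟩

/-- **the cusp `∞`** of `X₀(N)` over `ℚ̄` -/
def cuspInf : Place Kb ↥(modularFunctionFieldBar N) :=
  qPlace (modularFunctionFieldBar N) (exists_pole N)

theorem ord_cuspInf (f : ↥(modularFunctionFieldBar N)) (hf : f ≠ 0) :
    (cuspInf N).ord f = qOrd (modularFunctionFieldBar N) f :=
  ord_qPlace _ (exists_pole N) (exists_unif N) f hf

theorem ord_cuspInf_jgen : (cuspInf N).ord (jgen N) = -1 := by
  rw [ord_cuspInf N _ (jgen_ne_zero N), qOrd_jgen]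

theorem ord_cuspInf_jN : (cuspInf N).ord (jN N) = -(N : ℤ) := by
  rw [ord_cuspInf N _ (jN_ne_zero N), qOrd_jN]

/-! ### `N` prime: the second cusp -/

section Prime

variable {N}

omit [NeZero N] in
theorem cuspCount_prime (hN : N.Prime) : ModularCurve.cuspCount N = 2 := by
  rw [ModularCurve.cuspCount, hN.divisors, Finset.sum_pair hN.one_lt.ne]
  simp [Nat.div_self hN.pos]

omit [NeZero N] in
theorem dedekindPsi_prime (hN : N.Prime) : ModularCurve.dedekindPsi N = N + 1 := by
  rw [ModularCurve.dedekindPsi, hN.divisors, Finset.filter_true_of_mem, Finset.sum_pair hN.one_lt.ne]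
  · simp [Nat.div_self hN.pos]
  · intro d hd
    rw [Finset.mem_insert, Finset.mem_singleton] at hd
    rcases hd with rfl | rfl
    · exact squarefree_one
    · exact hN.squarefree

theorem card_poles_jgen (hN : N.Prime) :
    (Fermat.Agent.S24.Hurwitz.poles (Fermat.Agent.S24.Degree.isFF N)).card = 2 := by
  rw [← Fermat.Agent.S24.Hurwitz.card_poles, Fermat.Agent.S24.OrbitsCuspAlt.card_poles N,
    Fermat.Agent.S20.CountFinal.card_orbits_T N, cuspCount_prime hN]

theorem sum_poles_jgen (hN : N.Prime) :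
    ∑ v ∈ Fermat.Agent.S24.Hurwitz.poles (Fermat.Agent.S24.Degree.isFF N), -v.ord (jgen N) =
      (N : ℤ) + 1 := by
  rw [Fermat.Agent.S24.Hurwitz.sum_poles, Fermat.Agent.S18.C.Forms.finrank_bar_eq_dedekindPsi,
    dedekindPsi_prime hN]
  push_cast
  rfl

theorem mem_poles_jgen_iff (v : Place Kb ↥(modularFunctionFieldBar N)) :
    v ∈ Fermat.Agent.S24.Hurwitz.poles (Fermat.Agent.S24.Degree.isFF N) ↔ v.ord (jgen N) < 0 := by
  rw [Fermat.Agent.S24.Hurwitz.mem_poles, ord_neg_iff v (jgen_ne_zero N)]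

theorem cuspInf_mem_poles :
    cuspInf N ∈ Fermat.Agent.S24.Hurwitz.poles (Fermat.Agent.S24.Degree.isFF N) := by
  rw [mem_poles_jgen_iff, ord_cuspInf_jgen]
  norm_num

/-- for `N` prime, `j` has exactly one pole besides the cusp `∞`, of order `N` -/
theorem exists_cuspZero (hN : N.Prime) :
    ∃ c0 : Place Kb ↥(modularFunctionFieldBar N), cuspInf N ≠ c0 ∧
      (∀ v : Place Kb ↥(modularFunctionFieldBar N),
        v.ord (jgen N) < 0 ↔ v = cuspInf N ∨ v = c0) ∧
      c0.ord (jgen N) = -(N : ℤ) := by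
  classical
  obtain ⟨x, y, hxy, hS⟩ := Finset.card_eq_two.mp (card_poles_jgen hN)
  have hmem := cuspInf_mem_poles (N := N)
  rw [hS, Finset.mem_insert, Finset.mem_singleton] at hmem
  have hsum := sum_poles_jgen hN
  rw [hS, Finset.sum_pair hxy] at hsum
  have hiff : ∀ v : Place Kb ↥(modularFunctionFieldBar N),
      v.ord (jgen N) < 0 ↔ v = x ∨ v = y := fun v => by
    rw [← mem_poles_jgen_iff, hS, Finset.mem_insert, Finset.mem_singleton]
  rcases hmem with h | h
  · refine ⟨y, h ▸ hxy, fun v => by rw [hiff v, h], ?_⟩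
    rw [← h, ord_cuspInf_jgen] at hsum
    omega
  · refine ⟨x, h ▸ hxy.symm, fun v => by rw [hiff v, h, or_comm], ?_⟩
    rw [← h, ord_cuspInf_jgen] at hsum
    omega

/-- **the cusp `0`** of `X₀(N)` over `ℚ̄`, `N` prime: the pole of `j` other than `∞` -/
def cuspZero (hN : N.Prime) : Place Kb ↥(modularFunctionFieldBar N) := (exists_cuspZero hN).choose

theorem cuspInf_ne_cuspZero (hN : N.Prime) : cuspInf N ≠ cuspZero hN :=
  (exists_cuspZero hN).choose_spec.1

theorem ord_jgen_neg_iff (hN : N.Prime) (v : Place Kb ↥(modularFunctionFieldBar N)) :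
    v.ord (jgen N) < 0 ↔ v = cuspInf N ∨ v = cuspZero hN :=
  (exists_cuspZero hN).choose_spec.2.1 v

theorem ord_cuspZero_jgen (hN : N.Prime) : (cuspZero hN).ord (jgen N) = -(N : ℤ) :=
  (exists_cuspZero hN).choose_spec.2.2

/-- `j` is regular outside the two cusps -/
theorem jgen_mem (hN : N.Prime) (P : Place Kb ↥(modularFunctionFieldBar N))
    (h1 : P ≠ cuspInf N) (h2 : P ≠ cuspZero hN) : jgen N ∈ P.toValuationSubring := by
  apply mem_of_ord_nonneg
  by_contra hneg
  rw [not_le] at hneg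
  rcases (ord_jgen_neg_iff hN P).mp hneg with h | h
  · exact h1 h
  · exact h2 h

/-! ### `j(q^N)` is regular outside the cusps -/

open Fermat.Agent.S28.IntegralChain in
/-- the prime level modular equation: `j(q^N)` is integral over `ℤ[j]` -/
theorem isIntegral_jN (hN : N.Prime) :
    IsIntegral (Subring.closure ({jgen N} : Set ↥(modularFunctionFieldBar N))) (jN N) := by
  obtain ⟨Φ, hm, hΦ⟩ := Fermat.Agent.S18.B.FkBasics.exists_rel Kb N hN
  refine isIntegral_of_rel hm ?_
  refine Rel.of_map ((modularFunctionFieldBar N).val : _ →+* LaurentSeries Kb)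
    (modularFunctionFieldBar N).val.injective ?_
  show Rel Φ ((jN N : ↥(modularFunctionFieldBar N)) : LaurentSeries Kb)
    ((jgen N : ↥(modularFunctionFieldBar N)) : LaurentSeries Kb)
  rw [coe_jN, coe_jgen_eq]
  exact hΦ

/-- `j(q^N)` is regular wherever `j` is -/
theorem jN_mem_of_jgen_mem (hN : N.Prime) (P : Place Kb ↥(modularFunctionFieldBar N))
    (hP : jgen N ∈ P.toValuationSubring) : jN N ∈ P.toValuationSubring := by
  rw [mem_iff]
  refine adicValuation_le_one_of_isIntegral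
    (R := Subring.closure ({jgen N} : Set ↥(modularFunctionFieldBar N))) P ?_ (isIntegral_jN hN)
  intro r
  rw [← mem_iff]
  have hle : Subring.closure ({jgen N} : Set ↥(modularFunctionFieldBar N)) ≤
      P.toValuationSubring.toSubring :=
    (Subring.closure_le).mpr (Set.singleton_subset_iff.mpr hP)
  exact hle r.2

theorem jN_mem (hN : N.Prime) (P : Place Kb ↥(modularFunctionFieldBar N))
    (h1 : P ≠ cuspInf N) (h2 : P ≠ cuspZero hN) : jN N ∈ P.toValuationSubring :=
  jN_mem_of_jgen_mem hN P (jgen_mem hN P h1 h2)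

/-! ### the pole of `j(q^N)` at the cusp `0` is at most simple -/

open Polynomial Fermat.Agent.S28.LaurentRescale in
/-- the second root of the modular equation: `Φ(j, j(q^N)) = 0` with `Φ` monic of degree `N + 1`
in the first variable -/
theorem exists_rel_symm (hN : N.Prime) :
    ∃ Φ : Polynomial (Polynomial Kb), Φ.Monic ∧ Φ.natDegree = N + 1 ∧
      Polynomial.eval₂ (Polynomial.aeval (jN N) :
        Polynomial Kb →ₐ[Kb] ↥(modularFunctionFieldBar N)).toRingHom (jgen N) Φ = 0 := by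
  obtain ⟨Φ, hm, hdeg, hΦ⟩ := Fermat.Agent.S28.ModPolyPrime.hasModPoly Kb N hN
  have hNk : ((N : ℕ) : Kb) ≠ 0 := Nat.cast_ne_zero.mpr hN.ne_zero
  obtain ⟨ζ, hζ⟩ := Fermat.Agent.S28.StepDeg.exists_isPrimitiveRoot_units (k := Kb) (p := N) hNk
  refine ⟨Φ, hm, hdeg, ?_⟩
  apply Subtype.ext
  rw [coe_eval₂, coe_jN, coe_jgen_eq]
  have h := congrArg (Polynomial.eval (jqModC Kb)) (hΦ ζ hζ)
  rw [Polynomial.eval_map, Polynomial.eval_mul, Polynomial.eval_prod] at h
  rw [h]
  have h0 : (Polynomial.eval (jqModC Kb)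
      (X - C (rescaleU (ζ ^ 0) (jqModC Kb)))) = 0 := by
    rw [pow_zero, rescaleU_one, Polynomial.eval_sub, Polynomial.eval_X, Polynomial.eval_C]
    exact sub_self _
  rw [Finset.prod_eq_zero (Finset.mem_range.mpr hN.pos) h0, mul_zero]
  rfl

/-- `ℚ̄(X₀(N)) = ℚ̄(j(q^N))(j)` for `N` prime -/
theorem adjoin_jgen_eq_top (hN : N.Prime) :
    (Kb⟮jN N⟯)⟮jgen N⟯ = (⊤ : IntermediateField Kb⟮jN N⟯ ↥(modularFunctionFieldBar N)) := by
  apply IntermediateField.restrictScalars_injective Kb
  rw [IntermediateField.restrictScalars_top, eq_top_iff, ← adjoin_range_jdivF_eq_top N,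
    IntermediateField.adjoin_le_iff]
  rintro _ ⟨⟨d, hd⟩, rfl⟩
  rw [SetLike.mem_coe, IntermediateField.mem_restrictScalars]
  rcases (Nat.dvd_prime hN).mp hd with h | h
  · have e : (⟨d, hd⟩ : {d : ℕ // d ∣ N}) = ⟨1, one_dvd N⟩ := Subtype.ext h
    rw [e]
    exact IntermediateField.mem_adjoin_simple_self _ _
  · have e : (⟨d, hd⟩ : {d : ℕ // d ∣ N}) = ⟨N, dvd_rfl⟩ := Subtype.ext h
    rw [e]
    have : jdivF N ⟨N, dvd_rfl⟩ = algebraMap Kb⟮jN N⟯ ↥(modularFunctionFieldBar N)
        ⟨jN N, IntermediateField.mem_adjoin_simple_self Kb (jN N)⟩ := rfl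
    rw [this]
    exact IntermediateField.algebraMap_mem _ _

/-- `[ℚ̄(X₀(N)) : ℚ̄(j(q^N))] ≤ N + 1` -/
theorem finrank_jN_le (hN : N.Prime) :
    Module.finrank Kb⟮jN N⟯ ↥(modularFunctionFieldBar N) ≤ N + 1 := by
  obtain ⟨Φ, hm, hdeg, hrel⟩ := exists_rel_symm hN
  have hP1 : Polynomial.aeval (jgen N) (Φ.map (toSimple (K := Kb) (jN N))) = 0 := by
    rw [aeval_map_toSimple]
    exact hrel
  have hP1m : (Φ.map (toSimple (K := Kb) (jN N))).Monic := hm.map _
  have hint : IsIntegral Kb⟮jN N⟯ (jgen N) := ⟨_, hP1m, by rwa [← Polynomial.aeval_def]⟩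
  have h1 : Module.finrank Kb⟮jN N⟯ ↥(modularFunctionFieldBar N) =
      (minpoly Kb⟮jN N⟯ (jgen N)).natDegree := by
    rw [← IntermediateField.adjoin.finrank hint, adjoin_jgen_eq_top hN,
      IntermediateField.finrank_top']
  rw [h1]
  calc (minpoly Kb⟮jN N⟯ (jgen N)).natDegree
      ≤ (Φ.map (toSimple (K := Kb) (jN N))).natDegree :=
        Polynomial.natDegree_le_of_dvd (minpoly.dvd _ _ hP1) hP1m.ne_zero
    _ = N + 1 := by rw [hm.natDegree_map, hdeg]

theorem isFF_jN : IsFF Kb (jN N) := by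
  refine (Fermat.Agent.S24.Degree.isFF N).of_not_mem_range fun c hc => ?_
  have h1 := qOrd_jN N
  rw [← hc, qOrd] at h1
  have h2 : ((algebraMap Kb ↥(modularFunctionFieldBar N) c : ↥(modularFunctionFieldBar N)) :
      LaurentSeries Kb) = algebraMap Kb (LaurentSeries Kb) c := rfl
  rw [h2, Fermat.Agent.S36.K0DescentLaurent.order_algebraMap_eq_zero] at h1
  have : (N : ℤ) = 0 := by omega
  exact NeZero.ne N (by exact_mod_cast this)

/-- **the pole of `j(q^N)` at the cusp `0` is at most simple** -/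
theorem ord_cuspZero_jN (hN : N.Prime) : -1 ≤ (cuspZero hN).ord (jN N) := by
  classical
  by_contra hlt
  rw [not_le] at hlt
  have hsum := Fermat.Agent.S24.Hurwitz.sum_poles (isFF_jN (N := N))
  have hle : (Module.finrank Kb⟮jN N⟯ ↥(modularFunctionFieldBar N) : ℤ) ≤ (N : ℤ) + 1 := by
    exact_mod_cast finrank_jN_le hN
  have hmemiff : ∀ v : Place Kb ↥(modularFunctionFieldBar N),
      v ∈ Fermat.Agent.S24.Hurwitz.poles (isFF_jN (N := N)) ↔ v.ord (jN N) < 0 := fun v => by
    rw [Fermat.Agent.S24.Hurwitz.mem_poles, ord_neg_iff v (jN_ne_zero N)]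
  have hN0 : (0 : ℤ) < N := by exact_mod_cast hN.pos
  have hsub : ({cuspInf N, cuspZero hN} : Finset (Place Kb ↥(modularFunctionFieldBar N))) ⊆
      Fermat.Agent.S24.Hurwitz.poles (isFF_jN (N := N)) := by
    intro v hv
    rw [Finset.mem_insert, Finset.mem_singleton] at hv
    rw [hmemiff]
    rcases hv with rfl | rfl
    · rw [ord_cuspInf_jN]
      omega
    · omega
  have h2 := Finset.sum_le_sum_of_subset_of_nonneg hsub
    (f := fun v : Place Kb ↥(modularFunctionFieldBar N) => -v.ord (jN N))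
    (fun v hv _ => by
      have := (hmemiff v).mp hv
      omega)
  rw [Finset.sum_pair (cuspInf_ne_cuspZero hN), ord_cuspInf_jN, hsum] at h2
  omega

end Prime

end Fermat.Agent.S15.E2.RedDict.X0Zero
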