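import Mathlib
import Fermat.Agent.S15.E2.RedDict.X0Zero
import Fermat.Agent.S37.Cusps.CuspCountFinal
import Fermat.Agent.S18.GaussFromHBar
import Fermat.Agent.S18.A.FibreSep
import Fermat.Agent.S18.B.SeparableFk
import Fermat.Agent.S18.C.FormsZMod
import Fermat.Agent.S18.ResidueBasics
import Fermat.Agent.S37.Wild.GenusLe
import Fermat.Agent.S37.Equivariance.PlaceEquiv
import Fermat.Agent.S17.Model.ReducedX0

/-!
# PROJECT M (S15), block [E2], leaf (E2-r): the cusp dictionary of `X₀(N)`, `N` prime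

`A` a valuation ring of `ℚ̄` over a prime `ℓ ∤ N`, `h : ReductionInputsModL A N`,
`r = placeReductionModL h`.  The abstract `Frame` of `RedDict/Abstract` is instantiated with
`J = j`, `JN = j(q^N)`, the cusps `∞`, `0` of `RedDict/X0Zero` and the `q`-adic place on the
residue side.  Exports (`oo N` is main's `S17.Model.ReducedX0.oo N`):

* `cuspInf_eq_oo`, `eq_cuspZero`, `smul_cuspZero`, `seamC0` : the cusp `0` exists, is the only
  pole of `j` besides `∞`, and is fixed by the arithmetic Galois action (seam (C-0) of block [A]);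
* `red_mem_cusps` (dichotomy), `red_eq_cuspZero` (r1), `red_eq_cuspInf'` (r2', mirror),
  `red_eq_cuspInf` (r2), `reductionModL_diff_eq_zero` (r3), `eq_of_red_cuspZero`, `eq_of_red_oo`
  (r4, uniqueness), `smul_eq_of_zero`, `smul_eq_of_inf` (r4, rationality of the place),
  `seamCE_core` (the local content of the seam (C-E)).
-/

set_option autoImplicit false
set_option synthInstance.maxHeartbeats 400000
set_option linter.unusedSectionVars false
set_option linter.style.haveILetI false

noncomputable section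

namespace Fermat.Agent.S15.E2.RedDict.Main

open AlgebraicCurve ModularCurve IntermediateField IsLocalRing
open Fermat.Agent.S24.DegreeAlg Fermat.Agent.S24.FF Fermat.Agent.S24.Ord
open Fermat.Agent.S15.E2.RedDict.QPlace Fermat.Agent.S15.E2.RedDict.Abstract
open Fermat.Agent.S15.E2.RedDict.X0Zero
open Fermat.Agent.S37.Cusps
open Fermat.Agent.S18.GaussFromH Fermat.Agent.S18.GaussFromHBar Fermat.Agent.S18.B.FkBasics

local notation "Kb" => AlgebraicClosure ℚ

attribute [local instance 2000] Fermat.Agent.S18.C.KModelX0.algkFk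
attribute [local instance] Fermat.Agent.S18.A.Instances.hasPrincipalDivisors_bar

/-! ### the cusp `∞` on the residue side -/

section Residue

variable (k : Type*) [Field k] (N : ℕ) [NeZero N]

theorem qOrd_jk : qOrd (modularFunctionFieldFullC k N) (jk k N) = -1 := by
  rw [qOrd, coe_jk, LaurentVal.order_jqModC]

theorem qOrd_jdkN : qOrd (modularFunctionFieldFullC k N) (jdk k N ⟨N, dvd_rfl⟩) = -(N : ℤ) := by
  rw [qOrd, coe_jdk, LaurentVal.order_qExpand N (jqModC_ne_zero_of_nontrivial k),
    LaurentVal.order_jqModC]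
  ring

theorem jk_ne_zero : jk k N ≠ 0 := by
  intro h
  have := qOrd_jk k N
  rw [h] at this
  simp [qOrd] at this

theorem jdkN_ne_zero : jdk k N ⟨N, dvd_rfl⟩ ≠ 0 := by
  intro h
  have := qOrd_jdkN k N
  rw [h] at this
  simp [qOrd] at this
  exact NeZero.ne N this

theorem exists_poleK : ∃ x : ↥(modularFunctionFieldFullC k N),
    qOrd (modularFunctionFieldFullC k N) x < 0 :=
  ⟨jk k N, by rw [qOrd_jk]; norm_num⟩

theorem exists_unifK : ∃ ϖ : ↥(modularFunctionFieldFullC k N),
    qOrd (modularFunctionFieldFullC k N) ϖ = 1 :=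
  ⟨(jk k N)⁻¹, by rw [qOrd_inv _ _ (jk_ne_zero k N), qOrd_jk]; norm_num⟩

/-- the cusp `∞` of `X₀(N)` over `k` -/
def cuspInfK : Place k ↥(modularFunctionFieldFullC k N) :=
  qPlace (modularFunctionFieldFullC k N) (exists_poleK k N)

theorem ord_cuspInfK (f : ↥(modularFunctionFieldFullC k N)) (hf : f ≠ 0) :
    (cuspInfK k N).ord f = qOrd (modularFunctionFieldFullC k N) f :=
  ord_qPlace _ (exists_poleK k N) (exists_unifK k N) f hf

theorem ord_cuspInfK_jk : (cuspInfK k N).ord (jk k N) = -1 := by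
  rw [ord_cuspInfK k N _ (jk_ne_zero k N), qOrd_jk]

theorem ord_cuspInfK_jdkN : (cuspInfK k N).ord (jdk k N ⟨N, dvd_rfl⟩) = -(N : ℤ) := by
  rw [ord_cuspInfK k N _ (jdkN_ne_zero k N), qOrd_jdkN]

end Residue

/-! ### the frame of `X₀(N)`, `N` prime, at a prime `ℓ ∤ N` -/

section ModL

variable {A : ValuationSubring Kb} {N : ℕ} [NeZero N]

/-- `j(q^N)` lies in the Gauss valuation ring -/
theorem jN_mem_O (h : ReductionInputsModL A N) : jN N ∈ (redDatumModL h).O := by
  have : jN N ∈ OwV A (residue ↥A) N (hasRepModL h) := by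
    rw [jN, ← CuspCountFinal.toFL_jdI N A ⟨N, dvd_rfl⟩]
    exact toFL_mem_OwV _ _
  exact this

/-- the reduction of `j(q^N)` is `J(q^N)` over the residue field -/
theorem red_jN (h : ReductionInputsModL A N) :
    (redDatumModL h).red ⟨jN N, jN_mem_O h⟩ = jdk (ResidueField ↥A) N ⟨N, dvd_rfl⟩ := by
  have h1 : (⟨jN N, jN_mem_O h⟩ : ↥(OwV A (residue ↥A) N (hasRepModL h))) =
      ⟨toFL A (residue ↥A) N (CuspCountFinal.jdI N A ⟨N, dvd_rfl⟩),
        toFL_mem_OwV (hasRepModL h) _⟩ :=
    Subtype.ext (CuspCountFinal.toFL_jdI N A ⟨N, dvd_rfl⟩).symm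
  show redV A (residue ↥A) N (hasRepModL h) ⟨jN N, jN_mem_O h⟩ = _
  rw [h1, redV_toFL, CuspCountFinal.red_jdI]

theorem red_jgen' (h : ReductionInputsModL A N) :
    (redDatumModL h).red ⟨jgen N, jgen_mem_O h⟩ = jk (ResidueField ↥A) N :=
  red_jgen h

/-- the residue field of a valuation ring of `ℚ̄` is algebraically closed -/
theorem isAlgClosed_k (A : ValuationSubring Kb) : IsAlgClosed (ResidueField ↥A) :=
  Fermat.Agent.S18.ResidueBasics.isAlgClosed_residueField A

/-- the poles of the reduction of `j` -/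
def polesK (A : ValuationSubring Kb) (N : ℕ) [NeZero N] :
    Finset (Place (ResidueField ↥A) ↥(modularFunctionFieldFullC (ResidueField ↥A) N)) :=
  haveI := isAlgClosed_k A
  Fermat.Agent.S18.A.FibreSep.poles (isFF (ResidueField ↥A) N)
    (Fermat.Agent.S18.B.SeparableFk.isSeparable_jk (ResidueField ↥A) N)

theorem mem_polesK (A : ValuationSubring Kb) (N : ℕ) [NeZero N]
    (Q : Place (ResidueField ↥A) ↥(modularFunctionFieldFullC (ResidueField ↥A) N)) :
    Q ∈ polesK A N ↔ Q.ord (jk (ResidueField ↥A) N) < 0 := by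
  haveI := isAlgClosed_k A
  exact Fermat.Agent.S18.A.FibreSep.mem_poles_iff_ord_neg _ _ Q

theorem sum_polesK {ℓ : ℕ} [Fact ℓ.Prime] (hA : A.LiesOverPrime ℓ) (hℓN : ¬ ℓ ∣ N)
    (hN : N.Prime) :
    ∑ Q ∈ polesK A N, -Q.ord (jk (ResidueField ↥A) N) = (N : ℤ) + 1 := by
  haveI := isAlgClosed_k A
  haveI := Fermat.Agent.S18.ResidueBasics.charP_residueField A hA
  letI : Algebra (ZMod ℓ) (ResidueField ↥A) := ZMod.algebra _ ℓ
  rw [polesK, Fermat.Agent.S18.A.FibreSep.sum_poles,
    Fermat.Agent.S18.C.FormsZMod.finrank_fullC_eq ℓ N (ResidueField ↥A) hℓN,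
    dedekindPsi_prime hN]
  push_cast
  rfl

/-- **the frame of `X₀(N)`**, `N` prime, at a valuation ring `A` of `ℚ̄` over a prime `ℓ ∤ N` -/
def frame {ℓ : ℕ} [Fact ℓ.Prime] (hA : A.LiesOverPrime ℓ) (hℓN : ¬ ℓ ∣ N) (hN : N.Prime)
    (h : ReductionInputsModL A N) : Frame (redDatumModL h) N where
  J := jgen N
  JN := jN N
  hJ := jgen_mem_O h
  hJN := jN_mem_O h
  cI := cuspInf N
  c0 := cuspZero hN
  cIb := cuspInfK (ResidueField ↥A) N
  ne := cuspInf_ne_cuspZero hN
  ord_cI_J := ord_cuspInf_jgen N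
  ord_cI_JN := ord_cuspInf_jN N
  ord_c0_J := ord_cuspZero_jgen hN
  ord_c0_JN := ord_cuspZero_jN hN
  reg_J := jgen_mem hN
  reg_JN := jN_mem hN
  ord_cIb_J := by rw [red_jgen' h]; exact ord_cuspInfK_jk _ N
  ord_cIb_JN := by rw [red_jN h]; exact ord_cuspInfK_jdkN _ N
  Sb := polesK A N
  mem_Sb := fun Q => by rw [red_jgen' h]; exact mem_polesK A N Q
  sum_Sb := by rw [red_jgen' h]; exact sum_polesK hA hℓN hN

end ModL

/-! ### the two cusps: comparison with main's `oo`, uniqueness and rationality of the cusp `0` -/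

section Cusps

variable {N : ℕ} [NeZero N]

local notation "oo" => Fermat.Agent.S17.Model.ReducedX0.oo

/-- the cusp `∞` of this leaf is main's `S17.Model.ReducedX0.oo` -/
theorem cuspInf_eq_oo : cuspInf N = oo N := by
  apply Place.ext
  ext x
  exact Iff.rfl

/-- a pole of `j` other than `∞` is THE cusp `0` -/
theorem eq_cuspZero (hN : N.Prime) {c0 : Place Kb ↥(modularFunctionFieldBar N)}
    (h1 : c0 ≠ oo N) (h2 : c0.ord (jgen N) < 0) : c0 = cuspZero hN := by
  rcases (ord_jgen_neg_iff hN c0).mp h2 with h | h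
  · exact absurd (h.trans cuspInf_eq_oo) h1
  · exact h

theorem cuspZero_ne_oo (hN : N.Prime) : cuspZero hN ≠ oo N := by
  rw [← cuspInf_eq_oo]
  exact (cuspInf_ne_cuspZero hN).symm

theorem ord_cuspZero_jgen_neg (hN : N.Prime) : (cuspZero hN).ord (jgen N) < 0 := by
  rw [ord_cuspZero_jgen hN]
  have : (0 : ℤ) < N := by exact_mod_cast hN.pos
  omega

/-- the arithmetic Galois action moves the zeros of a fixed function to zeros -/
theorem smul_mem_nonunits {K F : Type*} [Field K] [Field F] [Algebra K F]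
    (g : SemilinearAut K F) (v : Place K F) {f : F} (hf : f ∈ v.toValuationSubring.nonunits) :
    g • f ∈ (g • v).toValuationSubring.nonunits := by
  rcases eq_or_ne f 0 with rfl | h0
  · rw [smul_zero]
    exact ValuationSubring.mem_nonunits_iff_exists_mem_maximalIdeal.mpr
      ⟨zero_mem _, zero_mem _⟩
  · have h1 : g • f ≠ 0 := by
      rw [SemilinearAut.smul_def]
      exact (map_ne_zero_iff _ (SemilinearAut.toRingAut g).injective).mpr h0
    rw [mem_nonunits_iff_lt, ← ord_pos_iff _ h1, SemilinearAut.ord_smul]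
    exact ord_pos_of_mem_nonunits v h0 hf

/-- `j(q^N)` is fixed by the arithmetic Galois action -/
theorem smul_jN (σ : Kb ≃ₐ[ℚ] Kb) :
    arithmeticGalois (modularFunctionFieldFull N) σ • jN N = jN N := by
  apply Subtype.ext
  rw [coe_arithmeticGalois_smul, coe_jN, EmbeddingsK.coeffMap_qExpand_aux, coeffMap_jqModC]

/-- **the cusp `0` is rational** -/
theorem smul_cuspZero (hN : N.Prime) (σ : Kb ≃ₐ[ℚ] Kb) :
    arithmeticGalois (modularFunctionFieldFull N) σ • cuspZero hN = cuspZero hN := by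
  set g := arithmeticGalois (modularFunctionFieldFull N) σ with hg
  have h1 : (g • cuspZero hN).ord (jgen N) < 0 := by
    have := SemilinearAut.ord_smul g (cuspZero hN) (jgen N)
    rw [hg, Fermat.Agent.S37.Equivariance.PlaceEquiv.smul_jgen N σ, ← hg] at this
    rw [this]
    exact ord_cuspZero_jgen_neg hN
  refine eq_cuspZero hN (fun h => ?_) h1
  have h2 : cuspZero hN = g⁻¹ • oo N := by
    rw [← h, inv_smul_smul]
  have h3 : g⁻¹ • oo N = oo N := by
    rw [hg, ← map_inv]
    exact Fermat.Agent.S17.Model.ReducedX0.galAut_smul_oo N σ⁻¹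
  exact cuspZero_ne_oo hN (h2.trans h3)

/-- **SEAM (C-0)** of block [A] (`S15.A.Frame.SeamC0`, unfolded): the cusp `0` exists, is unique
and rational. -/
theorem seamC0 (hN : N.Prime) :
    ∃ c0 : Place Kb ↥(modularFunctionFieldBar N),
      (c0 ≠ oo N ∧ c0.ord (jgen N) < 0) ∧
      (∀ σ : Kb ≃ₐ[ℚ] Kb, arithmeticGalois (modularFunctionFieldFull N) σ • c0 = c0) ∧
      ∀ c : Place Kb ↥(modularFunctionFieldBar N), (c ≠ oo N ∧ c.ord (jgen N) < 0) → c = c0 :=
  ⟨cuspZero hN, ⟨cuspZero_ne_oo hN, ord_cuspZero_jgen_neg hN⟩, smul_cuspZero hN,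
    fun _ hc => eq_cuspZero hN hc.1 hc.2⟩

end Cusps

/-! ### the dictionary -/

section Dict

variable {N : ℕ} [NeZero N] {ℓ : ℕ} [Fact ℓ.Prime] {A : ValuationSubring Kb}

local notation "oo" => Fermat.Agent.S17.Model.ReducedX0.oo

theorem not_mem_of_one_lt {a : Kb} (ha : 1 < A.valuation a) : a ∉ A := fun h =>
  absurd ((A.valuation_le_one_iff a).mpr h) (not_le.mpr ha)

theorem not_dvd_of_ne (hN : N.Prime) (hℓN : ℓ ≠ N) : ¬ ℓ ∣ N := fun h =>
  hℓN ((Nat.prime_dvd_prime_iff_eq (Fact.out : ℓ.Prime) hN).mp h)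

/-- an element of valuation `< 1` is a nonunit of `A` -/
theorem exists_nonunit {c : Kb} (hc : A.valuation c < 1) :
    ∃ c' : A, (c' : Kb) = c ∧ ¬ IsUnit c' := by
  refine ⟨⟨c, (A.valuation_le_one_iff c).mp hc.le⟩, rfl, fun hu => ?_⟩
  have := (A.valuation_eq_one_iff _).mp hu
  exact absurd this hc.ne

/-- an element of valuation `1` is a unit of `A` -/
theorem exists_unit {c : Kb} (hc : A.valuation c = 1) :
    ∃ c' : A, (c' : Kb) = c ∧ IsUnit c' :=
  ⟨⟨c, (A.valuation_le_one_iff c).mp hc.le⟩, rfl, (A.valuation_eq_one_iff _).mpr hc⟩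

variable (hN : N.Prime) (hA : A.LiesOverPrime ℓ) (hℓN : ¬ ℓ ∣ N) (h : ReductionInputsModL A N)
variable {x x' : Place Kb ↥(modularFunctionFieldBar N)} {a a' b : Kb}

include hN hA hℓN in
/-- the cusp `∞` reduces to the cusp `∞` -/
theorem red_oo : placeReductionModL h (oo N) = cuspInfK (ResidueField ↥A) N := by
  rw [← cuspInf_eq_oo]
  exact (frame hA hℓN hN h).red_cI hN.two_le

include hA hℓN in
/-- the two cusps have different reductions -/
theorem red_cuspZero_ne : placeReductionModL h (cuspZero hN) ≠ placeReductionModL h (oo N) := by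
  rw [← cuspInf_eq_oo]
  exact (frame hA hℓN hN h).red_c0_ne_red_cI hN.two_le

include hA hℓN in
/-- **dichotomy**: a place where `j` takes a non-integral value reduces to (the reduction of)
a cusp. -/
theorem red_mem_cusps
    (hxa : jgen N - algebraMap Kb ↥(modularFunctionFieldBar N) a ∈ x.toValuationSubring.nonunits)
    (ha : 1 < A.valuation a) :
    placeReductionModL h x = placeReductionModL h (oo N) ∨
      placeReductionModL h x = placeReductionModL h (cuspZero hN) := by
  rw [red_oo hN hA hℓN h]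
  exact (frame hA hℓN hN h).red_mem_cusps hN.two_le hxa (not_mem_of_one_lt ha)

include hA hℓN in
/-- **(r1)**: `j(x) = a`, `j(q^N)(x) = b`, `v(a) > 1` and `b / a ^ N ∈ 𝔪_A`: `x` reduces to the
reduction of the cusp `0`. -/
theorem red_eq_cuspZero
    (hxa : jgen N - algebraMap Kb ↥(modularFunctionFieldBar N) a ∈ x.toValuationSubring.nonunits)
    (hxb : jN N - algebraMap Kb ↥(modularFunctionFieldBar N) b ∈ x.toValuationSubring.nonunits)
    (ha : 1 < A.valuation a) (hq : A.valuation (b / a ^ N) < 1) :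
    placeReductionModL h x = placeReductionModL h (cuspZero hN) := by
  obtain ⟨c, hc, hcu⟩ := exists_nonunit hq
  have ha0 : a ≠ 0 := fun h0 => by rw [h0, map_zero] at ha; exact not_lt_zero ha
  refine (frame hA hℓN hN h).red_eq_c0 hN.two_le c hxa hxb (not_mem_of_one_lt ha) hcu ?_
  rw [hc, div_mul_cancel₀ _ (pow_ne_zero _ ha0)]

include hN hA hℓN in
/-- **(r2')**: `j(x) = a`, `j(q^N)(x) = b`, `v(a) > 1` and `a / b ^ N ∈ 𝔪_A`: `x` reduces to the
reduction of the cusp `∞`. -/
theorem red_eq_cuspInf'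
    (hxa : jgen N - algebraMap Kb ↥(modularFunctionFieldBar N) a ∈ x.toValuationSubring.nonunits)
    (hxb : jN N - algebraMap Kb ↥(modularFunctionFieldBar N) b ∈ x.toValuationSubring.nonunits)
    (ha : 1 < A.valuation a) (hb0 : b ≠ 0) (hq : A.valuation (a / b ^ N) < 1) :
    placeReductionModL h x = placeReductionModL h (oo N) := by
  obtain ⟨c, hc, hcu⟩ := exists_nonunit hq
  rw [← cuspInf_eq_oo]
  refine (frame hA hℓN hN h).red_eq_cI' hN.two_le c hxa hxb (not_mem_of_one_lt ha) hcu ?_
  rw [hc, div_mul_cancel₀ _ (pow_ne_zero _ hb0)]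

include hN hA hℓN in
/-- **(r2)**: `j(x) = a`, `j(q^N)(x) = b`, `v(a) > 1` and `b / a ^ N` a unit of `A`: `x` reduces to
the reduction of the cusp `∞`. -/
theorem red_eq_cuspInf
    (hxa : jgen N - algebraMap Kb ↥(modularFunctionFieldBar N) a ∈ x.toValuationSubring.nonunits)
    (hxb : jN N - algebraMap Kb ↥(modularFunctionFieldBar N) b ∈ x.toValuationSubring.nonunits)
    (ha : 1 < A.valuation a) (hq : A.valuation (b / a ^ N) = 1) :
    placeReductionModL h x = placeReductionModL h (oo N) := by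
  obtain ⟨c, hc, hcu⟩ := exists_unit hq
  have ha0 : a ≠ 0 := fun h0 => by rw [h0, map_zero] at ha; exact not_lt_zero ha
  rw [← cuspInf_eq_oo]
  refine (frame hA hℓN hN h).red_eq_cI hN.two_le c hxa hxb (not_mem_of_one_lt ha) hcu ?_
  rw [hc, div_mul_cancel₀ _ (pow_ne_zero _ ha0)]

include hA hℓN in
/-- **(r4), uniqueness at the cusp `0`**: two places with the same non-integral value of `j(q^N)`
which reduce to the reduction of the cusp `0` are equal. -/
theorem eq_of_red_cuspZero
    (hxa : jgen N - algebraMap Kb ↥(modularFunctionFieldBar N) a ∈ x.toValuationSubring.nonunits)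
    (hxa' : jgen N - algebraMap Kb ↥(modularFunctionFieldBar N) a' ∈
      x'.toValuationSubring.nonunits)
    (hxb : jN N - algebraMap Kb ↥(modularFunctionFieldBar N) b ∈ x.toValuationSubring.nonunits)
    (hxb' : jN N - algebraMap Kb ↥(modularFunctionFieldBar N) b ∈ x'.toValuationSubring.nonunits)
    (hb : 1 < A.valuation b)
    (hx : placeReductionModL h x = placeReductionModL h (cuspZero hN))
    (hx' : placeReductionModL h x' = placeReductionModL h (cuspZero hN)) : x = x' :=
  (frame hA hℓN hN h).unique_c0 hN.two_le hxa hxa' hxb hxb' (not_mem_of_one_lt hb) hx hx'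

include hN hA hℓN in
/-- **(r4), uniqueness at the cusp `∞`**: two places with the same non-integral value of `j` which
reduce to the reduction of the cusp `∞` are equal. -/
theorem eq_of_red_oo
    (hxa : jgen N - algebraMap Kb ↥(modularFunctionFieldBar N) a ∈ x.toValuationSubring.nonunits)
    (hxa' : jgen N - algebraMap Kb ↥(modularFunctionFieldBar N) a ∈
      x'.toValuationSubring.nonunits)
    (ha : 1 < A.valuation a)
    (hx : placeReductionModL h x = placeReductionModL h (oo N))
    (hx' : placeReductionModL h x' = placeReductionModL h (oo N)) : x = x' := by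
  rw [← cuspInf_eq_oo] at hx hx'
  exact (frame hA hℓN hN h).unique_cI hN.two_le hxa hxa' (not_mem_of_one_lt ha) hx hx'

omit [Fact ℓ.Prime] in
/-- **(r3)**: places with the same reduction give a class in the kernel of the reduction. -/
theorem reductionModL_diff_eq_zero (h : ReductionInputsModL A N)
    {x c : Place Kb ↥(modularFunctionFieldBar N)}
    (hxc : placeReductionModL h x = placeReductionModL h c)
    (hD : (Finsupp.single x 1 - Finsupp.single c 1 : Divisor Kb ↥(modularFunctionFieldBar N)) ∈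
      Divisor.degZero (K := Kb) (F := ↥(modularFunctionFieldBar N))) :
    reductionModL A N (Pic0.mk ⟨Finsupp.single x 1 - Finsupp.single c 1, hD⟩) = 0 := by
  rw [reductionModL_mk h]
  have : reductionDegZeroAlong (placeReductionModL h)
      (isPlaceReductionModL_placeReductionModL h).1
      ⟨Finsupp.single x 1 - Finsupp.single c 1, hD⟩ = 0 := by
    apply Subtype.ext
    rw [coe_reductionDegZeroAlong]
    show Finsupp.mapDomain (placeReductionModL h)
      (Finsupp.single x 1 - Finsupp.single c 1 : Divisor Kb ↥(modularFunctionFieldBar N)) = 0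
    rw [← Finsupp.mapDomain.addMonoidHom_apply, map_sub, Finsupp.mapDomain.addMonoidHom_apply,
      Finsupp.mapDomain.addMonoidHom_apply, Finsupp.mapDomain_single, Finsupp.mapDomain_single,
      hxc, sub_self]
  rw [this]
  exact Pic0.mk_zero

end Dict

/-! ### rationality and the packaged form for the seam (C-E) -/

section Rational

variable {N : ℕ} [NeZero N] {ℓ : ℕ} [Fact ℓ.Prime] {A : ValuationSubring Kb}
variable {x : Place Kb ↥(modularFunctionFieldBar N)} {a b : Kb}

local notation "oo" => Fermat.Agent.S17.Model.ReducedX0.oo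

omit [Fact ℓ.Prime] in
/-- the value of `j` at a Galois conjugate place -/
theorem smul_value_jgen (σ : Kb ≃ₐ[ℚ] Kb)
    (hxa : jgen N - algebraMap Kb ↥(modularFunctionFieldBar N) a ∈
      x.toValuationSubring.nonunits) :
    jgen N - algebraMap Kb ↥(modularFunctionFieldBar N) (σ a) ∈
      (arithmeticGalois (modularFunctionFieldFull N) σ • x).toValuationSubring.nonunits := by
  have := smul_mem_nonunits (arithmeticGalois (modularFunctionFieldFull N) σ) x hxa
  rw [smul_sub, Fermat.Agent.S37.Equivariance.PlaceEquiv.smul_jgen N σ,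
    SemilinearAut.smul_algebraMap, baseAut_arithmeticGalois] at this
  exact this

omit [Fact ℓ.Prime] in
/-- the value of `j(q^N)` at a Galois conjugate place -/
theorem smul_value_jN (σ : Kb ≃ₐ[ℚ] Kb)
    (hxb : jN N - algebraMap Kb ↥(modularFunctionFieldBar N) b ∈
      x.toValuationSubring.nonunits) :
    jN N - algebraMap Kb ↥(modularFunctionFieldBar N) (σ b) ∈
      (arithmeticGalois (modularFunctionFieldFull N) σ • x).toValuationSubring.nonunits := by
  have := smul_mem_nonunits (arithmeticGalois (modularFunctionFieldFull N) σ) x hxb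
  rw [smul_sub, smul_jN σ, SemilinearAut.smul_algebraMap, baseAut_arithmeticGalois] at this
  exact this

/-- **(r4), rationality through the cusp `0`**: a place `x` with Galois-fixed values `j(x) = a`,
`j(q^N)(x) = b` such that at ONE valuation ring `A` of `ℚ̄` over a prime `ℓ ∤ N` one has
`v(a) > 1`, `v(b) > 1` and `b / a ^ N ∈ 𝔪_A`, is fixed by the arithmetic Galois action. -/
theorem smul_eq_of_zero (hN : N.Prime) (hA : A.LiesOverPrime ℓ) (hℓN : ¬ ℓ ∣ N)
    (hxa : jgen N - algebraMap Kb ↥(modularFunctionFieldBar N) a ∈ x.toValuationSubring.nonunits)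
    (hxb : jN N - algebraMap Kb ↥(modularFunctionFieldBar N) b ∈ x.toValuationSubring.nonunits)
    (ha : 1 < A.valuation a) (hb : 1 < A.valuation b) (hq : A.valuation (b / a ^ N) < 1)
    (σ : Kb ≃ₐ[ℚ] Kb) (hσa : σ a = a) (hσb : σ b = b) :
    arithmeticGalois (modularFunctionFieldFull N) σ • x = x := by
  have h := CuspCountFinal.reductionInputsModL N A hA hℓN
  have hxa' := smul_value_jgen σ hxa
  have hxb' := smul_value_jN σ hxb
  rw [hσa] at hxa'
  rw [hσb] at hxb'
  exact eq_of_red_cuspZero hN hA hℓN h hxa' hxa hxb' hxb hb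
    (red_eq_cuspZero hN hA hℓN h hxa' hxb' ha hq) (red_eq_cuspZero hN hA hℓN h hxa hxb ha hq)

/-- **(r4), rationality through the cusp `∞`**: the same with `a / b ^ N ∈ 𝔪_A`. -/
theorem smul_eq_of_inf (hN : N.Prime) (hA : A.LiesOverPrime ℓ) (hℓN : ¬ ℓ ∣ N)
    (hxa : jgen N - algebraMap Kb ↥(modularFunctionFieldBar N) a ∈ x.toValuationSubring.nonunits)
    (hxb : jN N - algebraMap Kb ↥(modularFunctionFieldBar N) b ∈ x.toValuationSubring.nonunits)
    (ha : 1 < A.valuation a) (hb0 : b ≠ 0) (hq : A.valuation (a / b ^ N) < 1)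
    (σ : Kb ≃ₐ[ℚ] Kb) (hσa : σ a = a) (hσb : σ b = b) :
    arithmeticGalois (modularFunctionFieldFull N) σ • x = x := by
  have h := CuspCountFinal.reductionInputsModL N A hA hℓN
  have hxa' := smul_value_jgen σ hxa
  have hxb' := smul_value_jN σ hxb
  rw [hσa] at hxa'
  rw [hσb] at hxb'
  exact eq_of_red_oo hN hA hℓN h hxa' hxa ha
    (red_eq_cuspInf' hN hA hℓN h hxa' hxb' ha hb0 hq)
    (red_eq_cuspInf' hN hA hℓN h hxa hxb ha hb0 hq)

/-- **the local content of the seam (C-E)** (`S15.A.Frame.SeamCE`, one prime `ℓ ≠ N`, one `A`, one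
`h`, one cusp `c0 ≠ ∞`): from the strict inequalities of the elliptic side. -/
theorem seamCE_core (hN : N.Prime) (hℓN : ℓ ≠ N) (hA : A.LiesOverPrime ℓ)
    (h : ReductionInputsModL A N)
    (hxa : jgen N - algebraMap Kb ↥(modularFunctionFieldBar N) a ∈ x.toValuationSubring.nonunits)
    (hxb : jN N - algebraMap Kb ↥(modularFunctionFieldBar N) b ∈ x.toValuationSubring.nonunits)
    (ha : 1 < A.valuation a) (hb0 : b ≠ 0)
    {c0 : Place Kb ↥(modularFunctionFieldBar N)}
    (hc0 : c0 ≠ oo N ∧ c0.ord (jgen N) < 0) :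
    (A.valuation (b / a ^ N) < 1 → placeReductionModL h x = placeReductionModL h c0) ∧
      (A.valuation (a / b ^ N) < 1 → placeReductionModL h x = placeReductionModL h (oo N)) := by
  have hdvd := not_dvd_of_ne hN hℓN
  rw [eq_cuspZero hN hc0.1 hc0.2]
  exact ⟨fun hq => red_eq_cuspZero hN hA hdvd h hxa hxb ha hq,
    fun hq => red_eq_cuspInf' hN hA hdvd h hxa hxb ha hb0 hq⟩

end Rational

end Fermat.Agent.S15.E2.RedDict.Main
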