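import Mathlib
import Fermat.Agent.S15.E2.RedDict.Main

/-!
# PROJECT M (S15), block [E2], leaf (E2-r): the value of `j(q^N)` at a place reducing to the cusp `0`

Complement to `RedDict/Main`: on the residue side `j̄` is integral over `k[j̄(q^N)]` (the second
root of the prime level modular equation, main's `S28.ModPolyPrime.hasModPoly` over `k`), so
`j̄(q^N)` has a pole at the reduction of the cusp `0`.  Consequently a place `x` reducing to the
reduction of the cusp `0` has a NON-INTEGRAL value `j(q^N)(x)` (`value_jN_not_mem`), and the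
hypothesis `1 < v(b)` of `Main.smul_eq_of_zero` is automatic (`smul_eq_of_zero'`).
-/

set_option autoImplicit false
set_option synthInstance.maxHeartbeats 400000
set_option linter.unusedSectionVars false
set_option linter.style.haveILetI false

noncomputable section

namespace Fermat.Agent.S15.E2.RedDict.Symm

open AlgebraicCurve ModularCurve IntermediateField IsLocalRing
open Fermat.Agent.S24.DegreeAlg Fermat.Agent.S24.FF Fermat.Agent.S24.Ord
open Fermat.Agent.S15.E2.RedDict.QPlace Fermat.Agent.S15.E2.RedDict.Abstract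
open Fermat.Agent.S15.E2.RedDict.SumBound
open Fermat.Agent.S15.E2.RedDict.X0Zero Fermat.Agent.S15.E2.RedDict.Main
open Fermat.Agent.S37.Cusps
open Fermat.Agent.S18.CoreDefs
open Fermat.Agent.S18.GaussFromH Fermat.Agent.S18.GaussFromHBar Fermat.Agent.S18.B.FkBasics

local notation "Kb" => AlgebraicClosure ℚ

attribute [local instance 2000] Fermat.Agent.S18.C.KModelX0.algkFk
attribute [local instance] Fermat.Agent.S18.A.Instances.hasPrincipalDivisors_bar

/-! ### abstract part -/

section AbstractPart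

variable {L : Type*} [Field L] {FL : Type*} [Field FL] [Algebra L FL]
variable {k : Type*} [Field k] {Fk : Type*} [Field Fk] [Algebra k Fk]
variable {A : ValuationSubring L} {π : A →+* k} {r : Place L FL → Place k Fk}
variable {R : RedDatum A π r} {p : ℕ} (Φ : Frame R p) [HasPrincipalDivisors L FL]

/-- if the reduction of `j` is regular wherever the reduction of `j(q^p)` is, a place reducing to
the reduction of the cusp `0` has a non-integral value of `j(q^p)` -/
theorem value_JN_not_mem (hp : 2 ≤ p)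
    (hint : ∀ Q : Place k Fk, Φ.jNb ∈ Q.toValuationSubring → Φ.jb ∈ Q.toValuationSubring)
    {x : Place L FL} {a b : L}
    (hxa : Φ.J - algebraMap L FL a ∈ x.toValuationSubring.nonunits)
    (hxb : Φ.JN - algebraMap L FL b ∈ x.toValuationSubring.nonunits)
    (hx : r x = r Φ.c0) : b ∉ A := by
  classical
  intro hb
  -- the pole of the reduction of `j(q^p)`
  have hpole : Φ.jNb ∉ (r Φ.c0).toValuationSubring := fun hmem =>
    not_mem_of_ord_neg (r Φ.c0) (by rw [Φ.ord_red_c0_jb hp]; omega) (hint _ hmem)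
  set g : R.O := Φ.JNO - Frame.cO R ⟨b, hb⟩ with hg
  have hcoe : ((g : R.O) : FL) = Φ.JN - algebraMap L FL b := rfl
  have hredg : R.red g = Φ.jNb - algebraMap k Fk (π ⟨b, hb⟩) := by
    rw [hg, map_sub]
    congr 1
    exact R.red_algebraMap _
  have hnm : R.red g ∉ (r Φ.c0).toValuationSubring := fun hmem => by
    apply hpole
    have := (r Φ.c0).toValuationSubring.add_mem _ _ hmem ((r Φ.c0).algebraMap_mem' (π ⟨b, hb⟩))
    rwa [hredg, sub_add_cancel] at this
  have hred : R.red g ≠ 0 := fun h0 => hnm (h0 ▸ zero_mem _)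
  have hordneg : (r Φ.c0).ord (R.red g) < 0 := by
    by_contra hcon
    exact hnm (mem_of_ord_nonneg _ (not_lt.mp hcon))
  have hg0 : ((g : R.O) : FL) ≠ 0 := ne_zero_of_red_ne_zero R _ hred
  have hx0 : Φ.c0 ≠ x := (Φ.ne_c0_of_value hp hxa).symm
  have key := key_ineq R g hred (r Φ.c0) {Φ.c0, x}
    (fun P hP => by
      rw [Finset.mem_insert, Finset.mem_singleton] at hP
      rcases hP with rfl | rfl
      · rfl
      · exact hx)
    (fun P hPQ hPT => by
      rw [Finset.mem_insert, Finset.mem_singleton, not_or] at hPT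
      have h1 : P ≠ Φ.cI := by
        rintro rfl
        exact Φ.red_c0_ne_red_cI hp hPQ.symm
      refine ord_nonneg_of_mem P ?_
      rw [hcoe]
      exact sub_mem (Φ.reg_JN P h1 hPT.1) (P.algebraMap_mem' b))
  rw [Finset.sum_pair hx0] at key
  have h1 : -1 ≤ Φ.c0.ord ((g : R.O) : FL) := by
    rw [hcoe] at hg0 ⊢
    refine le_ord_sub _ hg0 (Or.inr Φ.ord_c0_JN) (Or.inr ?_)
    rw [ord_algebraMap]
    omega
  have h2 : 0 < x.ord ((g : R.O) : FL) := by
    refine ord_pos_of_mem_nonunits x hg0 ?_
    rw [hcoe]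
    exact hxb
  omega

end AbstractPart

/-! ### the residue side: `j̄` is integral over `k[j̄(q^N)]` -/

section ResidueSide

theorem coe_eval₂E {K : Type*} [Field K] (E : IntermediateField K (LaurentSeries K)) (x r : E)
    (P : Polynomial (Polynomial K)) :
    ((Polynomial.eval₂ (Polynomial.aeval x : Polynomial K →ₐ[K] E).toRingHom r P : E) :
        LaurentSeries K)
      = Polynomial.eval₂ (Polynomial.aeval (x : LaurentSeries K) :
          Polynomial K →ₐ[K] LaurentSeries K).toRingHom (r : LaurentSeries K) P := by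
  have := Polynomial.hom_eval₂ P (Polynomial.aeval x : Polynomial K →ₐ[K] E).toRingHom
    (E.val : E →+* LaurentSeries K) r
  refine this.trans ?_
  congr 1
  refine RingHom.ext fun s => ?_
  exact (Polynomial.aeval_algHom_apply E.val x s).symm

variable (k : Type*) [Field k] [IsAlgClosed k] (N : ℕ) [NeZero N]

open Polynomial Fermat.Agent.S28.LaurentRescale in
/-- the second root of the modular equation over `k`: `Φ(j̄, j̄(q^N)) = 0` with `Φ` monic in the
first variable -/
theorem exists_rel_symmK (hN : N.Prime) (hNk : (N : k) ≠ 0) :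
    ∃ Φ : Polynomial (Polynomial k), Φ.Monic ∧
      Polynomial.eval₂ (Polynomial.aeval (jdk k N ⟨N, dvd_rfl⟩) :
        Polynomial k →ₐ[k] ↥(modularFunctionFieldFullC k N)).toRingHom (jk k N) Φ = 0 := by
  obtain ⟨Φ, hm, -, hΦ⟩ := Fermat.Agent.S28.ModPolyPrime.hasModPoly k N hN
  obtain ⟨ζ, hζ⟩ := Fermat.Agent.S28.StepDeg.exists_isPrimitiveRoot_units (k := k) (p := N) hNk
  refine ⟨Φ, hm, ?_⟩
  apply Subtype.ext
  rw [coe_eval₂E, coe_jdk, coe_jk]
  have h := congrArg (Polynomial.eval (jqModC k)) (hΦ ζ hζ)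
  rw [Polynomial.eval_map, Polynomial.eval_mul, Polynomial.eval_prod] at h
  rw [h]
  have h0 : (Polynomial.eval (jqModC k)
      (X - C (rescaleU (ζ ^ 0) (jqModC k)))) = 0 := by
    rw [pow_zero, rescaleU_one, Polynomial.eval_sub, Polynomial.eval_X, Polynomial.eval_C]
    exact sub_self _
  rw [Finset.prod_eq_zero (Finset.mem_range.mpr hN.pos) h0, mul_zero]
  rfl

/-- `j̄` is regular wherever `j̄(q^N)` is -/
theorem jk_mem_of_jdkN_mem (hN : N.Prime) (hNk : (N : k) ≠ 0)
    (Q : Place k ↥(modularFunctionFieldFullC k N))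
    (hQ : jdk k N ⟨N, dvd_rfl⟩ ∈ Q.toValuationSubring) : jk k N ∈ Q.toValuationSubring := by
  obtain ⟨Φ, hm, hrel⟩ := exists_rel_symmK k N hN hNk
  letI : Algebra (Polynomial k) ↥(modularFunctionFieldFullC k N) :=
    (Polynomial.aeval (jdk k N ⟨N, dvd_rfl⟩) :
      Polynomial k →ₐ[k] ↥(modularFunctionFieldFullC k N)).toRingHom.toAlgebra
  have hint : IsIntegral (Polynomial k) (jk k N) := ⟨Φ, hm, hrel⟩
  rw [mem_iff]
  refine adicValuation_le_one_of_isIntegral (R := Polynomial k) Q ?_ hint
  intro s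
  rw [← mem_iff]
  show Polynomial.aeval (jdk k N ⟨N, dvd_rfl⟩) s ∈ Q.toValuationSubring
  let S : Subalgebra k ↥(modularFunctionFieldFullC k N) :=
    { Q.toValuationSubring.toSubring with algebraMap_mem' := Q.algebraMap_mem' }
  have hle : Algebra.adjoin k {jdk k N ⟨N, dvd_rfl⟩} ≤ S :=
    Algebra.adjoin_le (Set.singleton_subset_iff.mpr hQ)
  exact hle (Polynomial.aeval_mem_adjoin_singleton k _)

end ResidueSide

/-! ### `X₀(N)` -/

section X0

variable {N : ℕ} [NeZero N] {ℓ : ℕ} [Fact ℓ.Prime] {A : ValuationSubring Kb}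
variable (hN : N.Prime) (hA : A.LiesOverPrime ℓ) (hℓN : ¬ ℓ ∣ N) (h : ReductionInputsModL A N)
variable {x x' : Place Kb ↥(modularFunctionFieldBar N)} {a a' b : Kb}

include hA hℓN in
/-- **a place reducing to the reduction of the cusp `0` has a non-integral value of `j(q^N)`** -/
theorem one_lt_valuation_jN
    (hxa : jgen N - algebraMap Kb ↥(modularFunctionFieldBar N) a ∈ x.toValuationSubring.nonunits)
    (hxb : jN N - algebraMap Kb ↥(modularFunctionFieldBar N) b ∈ x.toValuationSubring.nonunits)
    (hx : placeReductionModL h x = placeReductionModL h (cuspZero hN)) : 1 < A.valuation b := by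
  haveI := isAlgClosed_k A
  by_contra hcon
  have hb : b ∈ A := (A.valuation_le_one_iff b).mp (not_lt.mp hcon)
  refine value_JN_not_mem (frame hA hℓN hN h) hN.two_le ?_ hxa hxb hx hb
  intro Q hQ
  have h1 : (frame hA hℓN hN h).jNb = jdk (ResidueField ↥A) N ⟨N, dvd_rfl⟩ := red_jN h
  have h2 : (frame hA hℓN hN h).jb = jk (ResidueField ↥A) N := red_jgen' h
  rw [h1] at hQ
  rw [h2]
  exact jk_mem_of_jdkN_mem (ResidueField ↥A) N hN
    (Fermat.Agent.S18.ResidueBasics.natCast_ne_zero_of_not_dvd A hA hℓN) Q hQ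

include hA hℓN in
/-- uniqueness at the cusp `0`, without hypothesis on the value of `j(q^N)` -/
theorem eq_of_red_cuspZero'
    (hxa : jgen N - algebraMap Kb ↥(modularFunctionFieldBar N) a ∈ x.toValuationSubring.nonunits)
    (hxa' : jgen N - algebraMap Kb ↥(modularFunctionFieldBar N) a' ∈
      x'.toValuationSubring.nonunits)
    (hxb : jN N - algebraMap Kb ↥(modularFunctionFieldBar N) b ∈ x.toValuationSubring.nonunits)
    (hxb' : jN N - algebraMap Kb ↥(modularFunctionFieldBar N) b ∈ x'.toValuationSubring.nonunits)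
    (hx : placeReductionModL h x = placeReductionModL h (cuspZero hN))
    (hx' : placeReductionModL h x' = placeReductionModL h (cuspZero hN)) : x = x' :=
  eq_of_red_cuspZero hN hA hℓN h hxa hxa' hxb hxb'
    (one_lt_valuation_jN hN hA hℓN h hxa hxb hx) hx hx'

/-- **(r4), rationality through the cusp `0`, minimal hypotheses**: a place `x` with Galois-fixed
values `j(x) = a`, `j(q^N)(x) = b` such that at ONE valuation ring `A` of `ℚ̄` over a prime
`ℓ ∤ N` one has `v(a) > 1` and `b / a ^ N ∈ 𝔪_A`, is fixed by the arithmetic Galois action. -/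
theorem smul_eq_of_zero'
    (hN : N.Prime) (hA : A.LiesOverPrime ℓ) (hℓN : ¬ ℓ ∣ N)
    (hxa : jgen N - algebraMap Kb ↥(modularFunctionFieldBar N) a ∈ x.toValuationSubring.nonunits)
    (hxb : jN N - algebraMap Kb ↥(modularFunctionFieldBar N) b ∈ x.toValuationSubring.nonunits)
    (ha : 1 < A.valuation a) (hq : A.valuation (b / a ^ N) < 1)
    (σ : Kb ≃ₐ[ℚ] Kb) (hσa : σ a = a) (hσb : σ b = b) :
    arithmeticGalois (modularFunctionFieldFull N) σ • x = x := by
  have h := CuspCountFinal.reductionInputsModL N A hA hℓN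
  exact smul_eq_of_zero hN hA hℓN hxa hxb ha
    (one_lt_valuation_jN hN hA hℓN h hxa hxb (red_eq_cuspZero hN hA hℓN h hxa hxb ha hq)) hq σ
    hσa hσb

end X0

end Fermat.Agent.S15.E2.RedDict.Symm
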